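import Mathlib
import Fermat.Prelude.Def_ModularCurve_X0ModL
import Fermat.Agent.H27.Igusa.Chain
import Fermat.Agent.H67.IgusaTransfer
import Fermat.Agent.H17.HeckeDataComplex
import Fermat.Agent.H89.ESDA3Fin

/-!
# KL-GB, part 1: the modular equations over `ℤ` and integrality of `j(q^d)` over `ℤ[j]`

* `exists_modularEquation` : for every prime `p` a monic `Φ ∈ ℤ[X][Y]` of degree `p + 1` with
  `Φ(j, j(q^p)) = 0` in `ℤ((q))`.
* `modularEquation_map` : such an identity over `ℤ` holds over every commutative ring.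
* `isIntegral_jLev_of_isIntegral` : `j(q^d)` is integral over every ring over which `j` is
  integral (any coefficient ring, any `d ≠ 0`).
-/

set_option autoImplicit false
set_option linter.style.haveILetI false

noncomputable section

open ModularCurve Polynomial Fermat.Agent.H27

namespace Fermat.Agent.H27.KLGB

/-- an identity `P(x, y) = 0` over `ℤ((q))` is inherited by every coefficient ring -/
theorem eval_map_coeffMap {R S : Type*} [CommRing R] [CommRing S] (f : R →+* S)
    (P : Polynomial (Polynomial ℤ)) (x y : LaurentSeries R)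
    (h : (P.map (evalAt x)).eval y = 0) :
    (P.map (evalAt (coeffMap f x))).eval (coeffMap f y) = 0 := by
  rw [← Fermat.Agent.H67.coeffMap_eval_L, h, map_zero]

/-- the modular equation of prime level `p`, over `ℤ` -/
theorem exists_modularEquation (p : ℕ) [NeZero p] (hp : p.Prime) :
    ∃ Φ : Polynomial (Polynomial ℤ), Φ.Monic ∧ Φ.natDegree = p + 1 ∧
      (Φ.map (evalAt (jqModC ℤ))).eval (qExpand ℤ p (jqModC ℤ)) = 0 := by
  have hpC : (p : ℂ) ≠ 0 := Nat.cast_ne_zero.mpr hp.ne_zero
  obtain ⟨ζ, hζ⟩ := Fermat.Agent.H89.exists_primitive_root_unit' ℂ p hpC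
  obtain ⟨D⟩ := Fermat.Agent.H17.hasHeckeData_complex p hp ζ hζ
  refine ⟨D.Φ, D.Φ_monic, D.Φ_natDegree, ?_⟩
  have hinj : Function.Injective (coeffMap (Int.castRingHom ℂ)) :=
    Fermat.Agent.H67.coeffMap_injective_of_injective _ (RingHom.injective_int _)
  apply hinj
  rw [map_zero, Fermat.Agent.H67.coeffMap_eval_L, coeffMap_qExpand, coeffMap_jqModC]
  exact Fermat.Agent.H89.hecke_Φ_eval_jq p ζ D

/-- the modular equation over any coefficient ring -/
theorem modularEquation_map {R : Type*} [CommRing R] (p : ℕ) [NeZero p]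
    (Φ : Polynomial (Polynomial ℤ))
    (h : (Φ.map (evalAt (jqModC ℤ))).eval (qExpand ℤ p (jqModC ℤ)) = 0) :
    (Φ.map (evalAt (jqModC R))).eval (qExpand R p (jqModC R)) = 0 := by
  have := eval_map_coeffMap (Int.castRingHom R) Φ _ _ h
  rwa [coeffMap_qExpand, coeffMap_jqModC] at this

/-- the modular equation at level `d`: `Φ(j(q^d), j(q^{dp})) = 0` -/
theorem modularEquation_jLev {R : Type*} [CommRing R] (p : ℕ) [NeZero p]
    (Φ : Polynomial (Polynomial ℤ))
    (h : (Φ.map (evalAt (jqModC ℤ))).eval (qExpand ℤ p (jqModC ℤ)) = 0) (d : ℕ) (hd : d ≠ 0) :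
    (Φ.map (evalAtR (jLev R d))).eval (jLev R (d * p)) = 0 := by
  haveI : NeZero d := ⟨hd⟩
  haveI : NeZero (d * p) := ⟨Nat.mul_ne_zero hd (NeZero.ne p)⟩
  have h1 := congrArg (qExpand R d) (modularEquation_map (R := R) p Φ h)
  rw [map_zero, map_eval_map, qExpand_qExpand] at h1
  rw [jLev_eq, jLev_eq]
  exact h1

/-- `j(q^d)` is integral over every ring over which `j` is integral. -/
theorem isIntegral_jLev_of_isIntegral {S : Type*} [CommRing S] {R : Type*} [CommRing R]
    [Algebra R (LaurentSeries S)] (hj : IsIntegral R (jqModC S)) :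
    ∀ d : ℕ, d ≠ 0 → IsIntegral R (jLev S d) := by
  intro d
  induction d using induction_on_primes with
  | zero => intro h; exact absurd rfl h
  | one =>
    intro _
    rw [jLev_one]
    exact hj
  | prime_mul p a hp ih =>
    intro hpa
    have ha0 : a ≠ 0 := right_ne_zero_of_mul hpa
    haveI : NeZero p := ⟨hp.ne_zero⟩
    obtain ⟨Φ, hΦm, -, hΦ⟩ := exists_modularEquation p hp
    have hint := ih ha0
    have h1 : IsIntegral (integralClosure R (LaurentSeries S)) (jLev S (a * p)) := by
      refine ⟨Φ.map (evalAtR (⟨jLev S a, hint⟩ : integralClosure R (LaurentSeries S))),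
        hΦm.map _, ?_⟩
      rw [Polynomial.eval₂_map, evalAtR_comp, ← Polynomial.eval_map]
      exact modularEquation_jLev p Φ hΦ a ha0
    rw [mul_comm]
    exact isIntegral_trans _ h1

end Fermat.Agent.H27.KLGB
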