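import Mathlib
import Fermat.Prelude.Def_ModularCurve_X0ModL
import Fermat.Agent.H27.KLGB.Integral
import Fermat.Agent.H27.Igusa.Assembly3
import Fermat.Agent.H89.ESDA3Sep

/-!
# KL-GB, part 2: the reduction field `F̄ = 𝔽_ℓ(j(q^d) : d ∣ N)` over `K̄ = 𝔽_ℓ(j)`

* every element of `𝔽_ℓ((q))` algebraic over `K̄` is separable over `K̄`;
* `F̄ / K̄` is finite separable of degree `≥ ψ(N)`;
* there is a primitive element `θ̄` of `F̄ / K̄` inside the ring `𝔽_ℓ[j(q^d) : d ∣ N]`.
-/

set_option autoImplicit false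
set_option linter.style.haveILetI false
set_option synthInstance.maxHeartbeats 400000

noncomputable section

open ModularCurve Polynomial Fermat.Agent.H27 IntermediateField

namespace Fermat.Agent.H27.KLGB

section General

variable (k : Type*) [Field k]

/-- `k(j) ⊆ k((q))` -/
abbrev kJ : IntermediateField k (LaurentSeries k) := IntermediateField.adjoin k {jqModC k}

/-- `j` as an element of `k(j)` -/
def jK : ↥(kJ k) := ⟨jqModC k, IntermediateField.mem_adjoin_simple_self k _⟩

@[simp] theorem coe_jK : ((jK k : ↥(kJ k)) : LaurentSeries k) = jqModC k := rfl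

/-- the generators `j(q^d)`, `d ∣ N`, are integral over `k(j)` -/
theorem isIntegral_gens (N : ℕ) {x : LaurentSeries k} (hx : x ∈ divisorExpansionsC k N) :
    IsIntegral ↥(kJ k) x := by
  obtain ⟨d, hd, -, rfl⟩ := hx
  haveI := hd
  have hj : IsIntegral ↥(kJ k) (jqModC k) := by
    have : jqModC k = algebraMap ↥(kJ k) (LaurentSeries k) (jK k) := rfl
    rw [this]
    exact isIntegral_algebraMap
  have := isIntegral_jLev_of_isIntegral (S := k) (R := ↥(kJ k)) hj d (NeZero.ne d)
  rwa [jLev_eq] at this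

/-- `F_k` as an intermediate field of `k((q)) / k(j)` -/
abbrev fullOver (N : ℕ) : IntermediateField ↥(kJ k) (LaurentSeries k) :=
  IntermediateField.adjoin ↥(kJ k) (divisorExpansionsC k N)

theorem mem_fullOver_iff (N : ℕ) [NeZero N] (x : LaurentSeries k) :
    x ∈ fullOver k N ↔ x ∈ modularFunctionFieldFullC k N := by
  have hKF : kJ k ≤ modularFunctionFieldFullC k N := by
    rw [IntermediateField.adjoin_le_iff]
    rintro y hy
    rw [Set.mem_singleton_iff.mp hy]
    exact jqModC_mem_full k N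
  constructor
  · intro hx
    have hle : fullOver k N ≤ IntermediateField.extendScalars hKF := by
      rw [IntermediateField.adjoin_le_iff]
      intro y hy
      exact (IntermediateField.mem_extendScalars hKF).mpr
        (IntermediateField.subset_adjoin k _ hy)
    exact (IntermediateField.mem_extendScalars hKF).mp (hle hx)
  · intro hx
    have hle : modularFunctionFieldFullC k N ≤ (fullOver k N).restrictScalars k := by
      rw [modularFunctionFieldFullC, IntermediateField.adjoin_le_iff]
      intro y hy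
      exact IntermediateField.subset_adjoin ↥(kJ k) _ hy
    exact hle hx

theorem finite_gens (N : ℕ) [NeZero N] : (divisorExpansionsC k N).Finite := by
  refine Set.Finite.subset ((N.divisors : Set ℕ).toFinite.image (jLev k)) ?_
  rintro x ⟨d, hd, hdvd, rfl⟩
  refine ⟨d, ?_, ?_⟩
  · exact Finset.mem_coe.mpr (Nat.mem_divisors.mpr ⟨hdvd, NeZero.ne N⟩)
  · haveI := hd
    exact jLev_eq k d

instance finiteDimensional_fullOver (N : ℕ) [NeZero N] :
    FiniteDimensional ↥(kJ k) ↥(fullOver k N) := by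
  haveI : Finite ↥(divisorExpansionsC k N) := (finite_gens k N).to_subtype
  exact IntermediateField.finiteDimensional_adjoin (fun x hx => isIntegral_gens k N hx)

end General

section CharL

variable (ℓ : ℕ) [Fact ℓ.Prime]

/-- every element of `𝔽_ℓ((q))` which is algebraic over `𝔽_ℓ(j)` is separable over it -/
theorem isSeparable_over_kJ (y : LaurentSeries (ZMod ℓ)) (hy : IsIntegral ↥(kJ (ZMod ℓ)) y) :
    IsSeparable ↥(kJ (ZMod ℓ)) y := by
  have hℓ : ℓ.Prime := Fact.out
  haveI : CharP ↥(kJ (ZMod ℓ)) ℓ :=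
    charP_of_injective_algebraMap (algebraMap (ZMod ℓ) ↥(kJ (ZMod ℓ))).injective ℓ
  have hkperf : ∀ a : ZMod ℓ, ∃ b : ZMod ℓ, b ^ ℓ = a := fun a => ⟨a, ZMod.pow_card a⟩
  refine Fermat.Agent.H89.isSeparable_of_pIndep ℓ (jK (ZMod ℓ)) ?_ ?_ y hy
  · intro a
    obtain ⟨b, hb, hab⟩ := Fermat.Agent.H89.exists_pDecomp_of_mem_adjoin ℓ (jqModC (ZMod ℓ))
      hkperf a.2
    refine ⟨fun r => ⟨b r, hb r⟩, ?_⟩
    apply Subtype.ext
    rw [hab]
    push_cast
    rfl
  · intro c hc
    exact Fermat.Agent.H89.laurent_pIndep ℓ (jqModC (ZMod ℓ))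
      (P2MW.S_ModularCurve_coeff_jqModC_neg_one.ModularCurve.CharLRows.order_jqModC (ZMod ℓ))
      c hc

instance isSeparable_fullOver (N : ℕ) [NeZero N] :
    Algebra.IsSeparable ↥(kJ (ZMod ℓ)) ↥(fullOver (ZMod ℓ) N) := by
  rw [IntermediateField.isSeparable_adjoin_iff_isSeparable]
  intro x hx
  exact isSeparable_over_kJ ℓ x (isIntegral_gens (ZMod ℓ) N hx)

/-- the degree of `F̄` over `𝔽_ℓ(j)` is at least `ψ(N)` -/
theorem dedekindPsi_le_finrank_fullOver (N : ℕ) [NeZero N] (hℓN : ¬ ℓ ∣ N) :
    dedekindPsi N ≤ Module.finrank ↥(kJ (ZMod ℓ)) ↥(fullOver (ZMod ℓ) N) := by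
  have h := dedekindPsi_le_relrank_zmod N ℓ hℓN Fermat.Agent.H17.hasHeckeData_complex
    (unitNormStatement_of_hasHeckeData _
      (Fermat.Agent.H67.hasHeckeData_of_complex Fermat.Agent.H17.hasHeckeData_complex _))
  have hKF : kJ (ZMod ℓ) ≤ modularFunctionFieldFullC (ZMod ℓ) N := by
    rw [IntermediateField.adjoin_le_iff]
    rintro y hy
    rw [Set.mem_singleton_iff.mp hy]
    exact jqModC_mem_full (ZMod ℓ) N
  rw [IntermediateField.relrank_eq_rank_of_le hKF] at h
  have heq : IntermediateField.extendScalars hKF = fullOver (ZMod ℓ) N := by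
    ext x
    rw [IntermediateField.mem_extendScalars, mem_fullOver_iff]
  rw [heq, ← Module.finrank_eq_rank] at h
  exact_mod_cast h

end CharL

end Fermat.Agent.H27.KLGB
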