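import Mathlib

/-!
# KL-GB (Mathlib only): clearing denominators in a field generated by integral elements

`k` a field, `E / k` a field extension, `t ∈ E`, `G ⊆ E` a set of elements integral over
`k[t] = Algebra.adjoin k {t}` with `t ∈ G`.  Then every element `y` of the field `k(G)` has a
nonzero "denominator" `s ∈ k[t]` with `s * y ∈ k[G] = Algebra.adjoin k G`.
-/

set_option autoImplicit false

noncomputable section

open Polynomial

namespace Fermat.Agent.H27.KLGB

/-- a nonzero root of a nonzero polynomial is a root of a polynomial with nonzero constant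
coefficient -/
theorem exists_aeval_eq_zero_coeff_zero_ne {R E : Type*} [CommRing R] [IsDomain R] [Field E]
    [Algebra R E] {b : E} (hb : b ≠ 0) {Q : R[X]} (hQ : Q ≠ 0) (hQb : aeval b Q = 0) :
    ∃ Q' : R[X], aeval b Q' = 0 ∧ Q'.coeff 0 ≠ 0 := by
  obtain ⟨q, hq, hnd⟩ := Polynomial.exists_eq_pow_rootMultiplicity_mul_and_not_dvd Q hQ 0
  refine ⟨q, ?_, ?_⟩
  · rw [hq, map_mul, map_pow, map_sub, aeval_X, aeval_C, map_zero, sub_zero] at hQb
    rcases mul_eq_zero.mp hQb with h | h
    · exact absurd (pow_eq_zero_iff (M₀ := E) (a := b) (n := Q.rootMultiplicity 0) (by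
        intro h0
        rw [h0, pow_zero] at h
        exact one_ne_zero h) |>.mp h) hb
    · exact h
  · intro h0
    apply hnd
    rw [map_zero, sub_zero]
    exact Polynomial.X_dvd_iff.mpr h0

variable {k E : Type*} [Field k] [Field E] [Algebra k E]

/-- elements of `k[G]` are integral over `k[t]` if the elements of `G` are -/
theorem isIntegral_of_mem_adjoin (t : E) (G : Set E)
    (hG : ∀ g ∈ G, IsIntegral ↥(Algebra.adjoin k ({t} : Set E)) g) {b : E}
    (hb : b ∈ Algebra.adjoin k G) : IsIntegral ↥(Algebra.adjoin k ({t} : Set E)) b := by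
  induction hb using Algebra.adjoin_induction with
  | mem x hx => exact hG x hx
  | algebraMap c =>
    have : algebraMap k E c = algebraMap ↥(Algebra.adjoin k ({t} : Set E)) E
        (algebraMap k ↥(Algebra.adjoin k ({t} : Set E)) c) := rfl
    rw [this]
    exact isIntegral_algebraMap
  | add x y _ _ hx hy => exact hx.add hy
  | mul x y _ _ hx hy => exact hx.mul hy

/-- **clearing denominators** -/
theorem exists_denominator (t : E) (G : Set E) (htG : t ∈ G)
    (hG : ∀ g ∈ G, IsIntegral ↥(Algebra.adjoin k ({t} : Set E)) g) {y : E}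
    (hy : y ∈ IntermediateField.adjoin k G) :
    ∃ s ∈ Algebra.adjoin k ({t} : Set E), s ≠ 0 ∧ s * y ∈ Algebra.adjoin k G := by
  have hle : Algebra.adjoin k ({t} : Set E) ≤ Algebra.adjoin k G :=
    Algebra.adjoin_mono (Set.singleton_subset_iff.mpr htG)
  induction hy using IntermediateField.adjoin_induction with
  | mem x hx => exact ⟨1, one_mem _, one_ne_zero, by rw [one_mul]; exact Algebra.subset_adjoin hx⟩
  | algebraMap c =>
    exact ⟨1, one_mem _, one_ne_zero, by rw [one_mul]; exact Subalgebra.algebraMap_mem _ c⟩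
  | add x y _ _ hx hy =>
    obtain ⟨s, hs, hs0, hsx⟩ := hx
    obtain ⟨s', hs', hs0', hsy⟩ := hy
    refine ⟨s * s', mul_mem hs hs', mul_ne_zero hs0 hs0', ?_⟩
    have : s * s' * (x + y) = s' * (s * x) + s * (s' * y) := by ring
    rw [this]
    exact add_mem (mul_mem (hle hs') hsx) (mul_mem (hle hs) hsy)
  | inv x _ hx =>
    obtain ⟨s, hs, hs0, hsx⟩ := hx
    by_cases hx0 : x = 0
    · exact ⟨1, one_mem _, one_ne_zero, by rw [hx0, inv_zero, mul_zero]; exact zero_mem _⟩
    set b := s * x with hb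
    have hb0 : b ≠ 0 := mul_ne_zero hs0 hx0
    have hbint := isIntegral_of_mem_adjoin t G hG hsx
    obtain ⟨Q, hQm, hQb⟩ := hbint
    have hQb' : aeval b Q = 0 := by rw [aeval_def]; exact hQb
    obtain ⟨Q', hQ'b, hQ'0⟩ := exists_aeval_eq_zero_coeff_zero_ne hb0 hQm.ne_zero hQb'
    -- `b * (divX Q')(b) = - c₀`
    have hdiv : aeval b Q' = b * aeval b Q'.divX + algebraMap _ E (Q'.coeff 0) := by
      conv_lhs => rw [← Polynomial.divX_mul_X_add Q']
      rw [map_add, map_mul, aeval_X, aeval_C, mul_comm]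
    rw [hQ'b] at hdiv
    set c₀ : ↥(Algebra.adjoin k ({t} : Set E)) := Q'.coeff 0 with hc₀
    have hc₀E : ((c₀ : ↥(Algebra.adjoin k ({t} : Set E))) : E) ≠ 0 := by
      intro h
      exact hQ'0 (Subtype.ext h)
    have hmem : aeval b Q'.divX ∈ Algebra.adjoin k G := by
      rw [aeval_eq_sum_range]
      refine sum_mem fun i _ => ?_
      rw [Algebra.smul_def]
      exact mul_mem (hle (Q'.divX.coeff i).2) (pow_mem hsx i)
    refine ⟨c₀, c₀.2, hc₀E, ?_⟩
    have hinv : (c₀ : E) * x⁻¹ = - (s * aeval b Q'.divX) := by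
      have h1 : (c₀ : E) = - (b * aeval b Q'.divX) := by
        have : algebraMap ↥(Algebra.adjoin k ({t} : Set E)) E c₀ = (c₀ : E) := rfl
        rw [this] at hdiv
        linear_combination -hdiv
      rw [h1, hb]
      field_simp
    rw [hinv]
    exact neg_mem (mul_mem (hle hs) hmem)
  | mul x y _ _ hx hy =>
    obtain ⟨s, hs, hs0, hsx⟩ := hx
    obtain ⟨s', hs', hs0', hsy⟩ := hy
    refine ⟨s * s', mul_mem hs hs', mul_ne_zero hs0 hs0', ?_⟩
    have : s * s' * (x * y) = (s * x) * (s' * y) := by ring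
    rw [this]
    exact mul_mem hsx hsy

end Fermat.Agent.H27.KLGB
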