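import Mathlib
import Fermat.Agent.H27.KLGB.CharL
import Fermat.Agent.H27.KLGB.Denom

/-!
# KL-GB, part 3: a primitive element of `F̄ / 𝔽_ℓ(j)` inside `𝔽_ℓ[j(q^d) : d ∣ N]`, lifted to `ℤ`

* `gensR R N` : the generators `j(q^d)`, `d ∣ N`, over any commutative ring `R`.
* `exists_primitive_mem_adjoin` : there is `θ̄ ∈ 𝔽_ℓ[j(q^d) : d ∣ N]` whose minimal polynomial over
  `𝔽_ℓ(j)` has degree `[F̄ : 𝔽_ℓ(j)]`.
* `exists_lift_of_mem_adjoin` : every element of `𝔽_ℓ[j(q^d)]` is the reduction of an element of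
  `ℤ[j(q^d)]`.
-/

set_option autoImplicit false
set_option linter.style.haveILetI false
set_option synthInstance.maxHeartbeats 400000

noncomputable section

open ModularCurve Polynomial Fermat.Agent.H27 IntermediateField

namespace Fermat.Agent.H27.KLGB

/-- the generators `j(q^d)`, `d ∣ N`, over a commutative ring -/
def gensR (R : Type*) [CommRing R] (N : ℕ) : Set (LaurentSeries R) :=
  {x | ∃ (d : ℕ) (_ : NeZero d), d ∣ N ∧ x = qExpand R d (jqModC R)}

theorem gensR_eq (k : Type*) [Field k] (N : ℕ) : gensR k N = divisorExpansionsC k N := rfl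

theorem jqModC_mem_gensR (R : Type*) [CommRing R] (N : ℕ) : jqModC R ∈ gensR R N :=
  ⟨1, ⟨one_ne_zero⟩, one_dvd N, by rw [qExpand_one_apply]⟩

theorem coeffMap_mem_gensR {R S : Type*} [CommRing R] [CommRing S] (f : R →+* S) (N : ℕ)
    {x : LaurentSeries R} (hx : x ∈ gensR R N) : coeffMap f x ∈ gensR S N := by
  obtain ⟨d, hd, hdN, rfl⟩ := hx
  exact ⟨d, hd, hdN, by rw [coeffMap_qExpand, coeffMap_jqModC]⟩

theorem coeffMap_algebraMap_int {S : Type*} [CommRing S] (n : ℤ) :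
    coeffMap (Int.castRingHom S) (algebraMap ℤ (LaurentSeries ℤ) n) =
      ((n : ℤ) : LaurentSeries S) := by
  rw [eq_intCast, map_intCast]

/-- every element of `𝔽_ℓ[j(q^d) : d ∣ N]` lifts to `ℤ[j(q^d) : d ∣ N]` -/
theorem exists_lift_of_mem_adjoin (ℓ : ℕ) [Fact ℓ.Prime] (N : ℕ)
    {y : LaurentSeries (ZMod ℓ)} (hy : y ∈ Algebra.adjoin (ZMod ℓ) (gensR (ZMod ℓ) N)) :
    ∃ x ∈ Algebra.adjoin ℤ (gensR ℤ N), coeffMap (Int.castRingHom (ZMod ℓ)) x = y := by
  induction hy using Algebra.adjoin_induction with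
  | mem x hx =>
    obtain ⟨d, hd, hdN, rfl⟩ := hx
    exact ⟨qExpand ℤ d (jqModC ℤ), Algebra.subset_adjoin ⟨d, hd, hdN, rfl⟩,
      by rw [coeffMap_qExpand, coeffMap_jqModC]⟩
  | algebraMap c =>
    obtain ⟨n, rfl⟩ := ZMod.intCast_surjective c
    refine ⟨algebraMap ℤ (LaurentSeries ℤ) n, Subalgebra.algebraMap_mem _ n, ?_⟩
    rw [coeffMap_algebraMap_int, map_intCast]
  | add x y _ _ hx hy =>
    obtain ⟨a, ha, rfl⟩ := hx
    obtain ⟨b, hb, rfl⟩ := hy
    exact ⟨a + b, add_mem ha hb, map_add _ _ _⟩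
  | mul x y _ _ hx hy =>
    obtain ⟨a, ha, rfl⟩ := hx
    obtain ⟨b, hb, rfl⟩ := hy
    exact ⟨a * b, mul_mem ha hb, map_mul _ _ _⟩

section Prim

variable (k : Type*) [Field k]

/-- `k[j] ⊆ k(j)` -/
theorem adjoin_singleton_le_kJ : (Algebra.adjoin k ({jqModC k} : Set (LaurentSeries k)) :
    Set (LaurentSeries k)) ⊆ (kJ k : Set (LaurentSeries k)) := by
  intro x hx
  exact IntermediateField.algebra_adjoin_le_adjoin k _ hx

/-- the generators are integral over `k[j]` -/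
theorem isIntegral_gens_adjoin (N : ℕ) {x : LaurentSeries k} (hx : x ∈ gensR k N) :
    IsIntegral ↥(Algebra.adjoin k ({jqModC k} : Set (LaurentSeries k))) x := by
  obtain ⟨d, hd, -, rfl⟩ := hx
  haveI := hd
  have hj : IsIntegral ↥(Algebra.adjoin k ({jqModC k} : Set (LaurentSeries k))) (jqModC k) := by
    have : jqModC k = algebraMap ↥(Algebra.adjoin k ({jqModC k} : Set (LaurentSeries k)))
        (LaurentSeries k) ⟨jqModC k, Algebra.subset_adjoin rfl⟩ := rfl
    rw [this]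
    exact isIntegral_algebraMap
  have := isIntegral_jLev_of_isIntegral (S := k)
    (R := ↥(Algebra.adjoin k ({jqModC k} : Set (LaurentSeries k)))) hj d (NeZero.ne d)
  rwa [jLev_eq] at this

/-- the minimal polynomial over `k(j)` is unchanged by multiplication of the element with a
nonzero element of `k(j)`, as far as the degree is concerned -/
theorem natDegree_minpoly_smul {K E : Type*} [Field K] [Field E] [Algebra K E] (s : K)
    (hs : s ≠ 0) (α : E) (hα : IsIntegral K α) :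
    (minpoly K (algebraMap K E s * α)).natDegree = (minpoly K α).natDegree := by
  have hsα : IsIntegral K (algebraMap K E s * α) := isIntegral_algebraMap.mul hα
  have hEq : K⟮algebraMap K E s * α⟯ = K⟮α⟯ := by
    apply le_antisymm
    · rw [IntermediateField.adjoin_simple_le_iff]
      exact mul_mem (IntermediateField.algebraMap_mem _ s)
        (IntermediateField.mem_adjoin_simple_self K α)
    · rw [IntermediateField.adjoin_simple_le_iff]
      have h1 : α = algebraMap K E s⁻¹ * (algebraMap K E s * α) := by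
        rw [← mul_assoc, ← map_mul, inv_mul_cancel₀ hs, map_one, one_mul]
      have h2 : algebraMap K E s⁻¹ * (algebraMap K E s * α) ∈ K⟮algebraMap K E s * α⟯ :=
        mul_mem (IntermediateField.algebraMap_mem _ s⁻¹)
          (IntermediateField.mem_adjoin_simple_self K _)
      rwa [← h1] at h2
  rw [← IntermediateField.adjoin.finrank hsα, ← IntermediateField.adjoin.finrank hα, hEq]

end Prim

/-- **a primitive element of `F̄ / 𝔽_ℓ(j)` in the ring `𝔽_ℓ[j(q^d) : d ∣ N]`** -/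
theorem exists_primitive_mem_adjoin (ℓ : ℕ) [Fact ℓ.Prime] (N : ℕ) [NeZero N] :
    ∃ θ : LaurentSeries (ZMod ℓ), θ ∈ Algebra.adjoin (ZMod ℓ) (gensR (ZMod ℓ) N) ∧
      θ ∈ fullOver (ZMod ℓ) N ∧
      (minpoly ↥(kJ (ZMod ℓ)) θ).natDegree =
        Module.finrank ↥(kJ (ZMod ℓ)) ↥(fullOver (ZMod ℓ) N) := by
  obtain ⟨α, hα⟩ := Field.exists_primitive_element ↥(kJ (ZMod ℓ)) ↥(fullOver (ZMod ℓ) N)
  have hαint : IsIntegral ↥(kJ (ZMod ℓ)) α := IsIntegral.of_finite _ α
  have hαdeg : (minpoly ↥(kJ (ZMod ℓ)) α).natDegree =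
      Module.finrank ↥(kJ (ZMod ℓ)) ↥(fullOver (ZMod ℓ) N) := by
    rw [← IntermediateField.adjoin.finrank hαint, hα, IntermediateField.finrank_top']
  -- clear denominators
  have hαF : (α : LaurentSeries (ZMod ℓ)) ∈
      IntermediateField.adjoin (ZMod ℓ) (gensR (ZMod ℓ) N) := by
    have := (mem_fullOver_iff (ZMod ℓ) N (α : LaurentSeries (ZMod ℓ))).mp α.2
    exact this
  obtain ⟨s, hs, hs0, hsα⟩ := exists_denominator (jqModC (ZMod ℓ)) (gensR (ZMod ℓ) N)
    (jqModC_mem_gensR _ N) (fun g hg => isIntegral_gens_adjoin (ZMod ℓ) N hg) hαF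
  have hsK : s ∈ kJ (ZMod ℓ) := adjoin_singleton_le_kJ (ZMod ℓ) hs
  set sK : ↥(kJ (ZMod ℓ)) := ⟨s, hsK⟩ with hsKdef
  have hsK0 : sK ≠ 0 := fun h => hs0 (congrArg Subtype.val h)
  have hαE : IsIntegral ↥(kJ (ZMod ℓ)) (α : LaurentSeries (ZMod ℓ)) :=
    (isIntegral_algebraMap_iff (FaithfulSMul.algebraMap_injective ↥(fullOver (ZMod ℓ) N)
      (LaurentSeries (ZMod ℓ)))).mpr hαint
  have hminα : minpoly ↥(kJ (ZMod ℓ)) (α : LaurentSeries (ZMod ℓ)) =
      minpoly ↥(kJ (ZMod ℓ)) α :=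
    minpoly.algebraMap_eq (FaithfulSMul.algebraMap_injective ↥(fullOver (ZMod ℓ) N)
      (LaurentSeries (ZMod ℓ))) α
  refine ⟨s * (α : LaurentSeries (ZMod ℓ)), hsα, ?_, ?_⟩
  · exact mul_mem (IntermediateField.algebraMap_mem _ sK) α.2
  · have := natDegree_minpoly_smul sK hsK0 (α : LaurentSeries (ZMod ℓ)) hαE
    have h2 : algebraMap ↥(kJ (ZMod ℓ)) (LaurentSeries (ZMod ℓ)) sK = s := rfl
    rw [h2] at this
    rw [this, hminα, hαdeg]

end Fermat.Agent.H27.KLGB
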