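import Mathlib
import Fermat.Agent.H27.KLGB.Prim
import Fermat.Agent.H88.IGD1

/-!
# KL-GB, part 4: the minimal polynomial over `ℤ[j]` in characteristic `0`

For `θ ∈ ℤ[j(q^d) : d ∣ N] ⊆ ℤ((q))` there is a monic `P ∈ ℤ[X][T]` with `P(j, θ) = 0` of degree
at most `ψ(N)` (the minimal polynomial over the integrally closed ring `ℤ[j]`, whose degree is
the degree of the minimal polynomial over `ℚ(j)`).
-/

set_option autoImplicit false
set_option linter.style.haveILetI false
set_option synthInstance.maxHeartbeats 400000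

noncomputable section

open ModularCurve Polynomial Fermat.Agent.H27 IntermediateField

namespace Fermat.Agent.H27.KLGB

/-- `ℤ[X] → ℚ(j)`, `X ↦ j` -/
def phiQ : Polynomial ℤ →+* ↥(kJ ℚ) :=
  Polynomial.eval₂RingHom (Int.castRingHom ↥(kJ ℚ)) (jK ℚ)

theorem algebraMap_comp_phiQ :
    (algebraMap ↥(kJ ℚ) (LaurentSeries ℚ)).comp phiQ = evalAt (jqModC ℚ) := by
  apply Polynomial.ringHom_ext
  · intro n
    simp [phiQ, evalAt]
  · simp [phiQ, evalAt]

theorem coe_phiQ (P : Polynomial ℤ) :
    ((phiQ P : ↥(kJ ℚ)) : LaurentSeries ℚ) = evalAt (jqModC ℚ) P := by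
  rw [← algebraMap_comp_phiQ]
  rfl

theorem evalAt_eq_aeval_map (P : Polynomial ℤ) :
    evalAt (jqModC ℚ) P = Polynomial.aeval (jqModC ℚ) (P.map (Int.castRingHom ℚ)) := by
  rw [Polynomial.aeval_def, Polynomial.eval₂_map]
  show Polynomial.eval₂ _ _ _ = _
  congr 1
  exact RingHom.ext_int _ _

theorem evalAt_jq_injective : Function.Injective (evalAt (jqModC ℚ)) := by
  intro P Q h
  rw [evalAt_eq_aeval_map, evalAt_eq_aeval_map] at h
  have h1 := (transcendental_iff_injective.mp
    (P2MW.S_ModularCurve_coeff_jqModC_neg_one.ModularCurve.CharLRows.transcendental_jqModC ℚ)) h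
  exact Polynomial.map_injective _ (RingHom.injective_int _) h1

theorem phiQ_injective : Function.Injective phiQ := by
  intro P Q h
  apply evalAt_jq_injective
  rw [← coe_phiQ, ← coe_phiQ, h]

/-- a rational polynomial in `j` is an integral polynomial in `j` divided by a nonzero integer -/
theorem exists_int_aeval (r : Polynomial ℚ) :
    ∃ (r' : Polynomial ℤ) (b : ℤ), b ≠ 0 ∧
      (b : LaurentSeries ℚ) * Polynomial.aeval (jqModC ℚ) r = evalAt (jqModC ℚ) r' := by
  obtain ⟨b, hb, hbr⟩ := IsLocalization.integerNormalization_spec (nonZeroDivisors ℤ) r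
  refine ⟨IsLocalization.integerNormalization (nonZeroDivisors ℤ) r, b,
    nonZeroDivisors.ne_zero hb, ?_⟩
  rw [evalAt_eq_aeval_map]
  have : (algebraMap ℤ ℚ) = Int.castRingHom ℚ := rfl
  rw [this] at hbr
  rw [hbr, map_zsmul, zsmul_eq_mul]

theorem exists_div_phiQ (z : ↥(kJ ℚ)) : ∃ x y, z = phiQ x / phiQ y := by
  obtain ⟨r, s, hrs⟩ := (IntermediateField.mem_adjoin_simple_iff ℚ (z : LaurentSeries ℚ)).mp z.2
  obtain ⟨r', b, hb, hr'⟩ := exists_int_aeval r
  obtain ⟨s', c, hc, hs'⟩ := exists_int_aeval s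
  refine ⟨Polynomial.C c * r', Polynomial.C b * s', Subtype.ext ?_⟩
  have hcast : ∀ n : ℤ, n ≠ 0 → (n : LaurentSeries ℚ) ≠ 0 := by
    intro n hn
    rw [← map_intCast (algebraMap ℚ (LaurentSeries ℚ))]
    exact (_root_.map_ne_zero _).mpr (Int.cast_ne_zero.mpr hn)
  have hbE : (b : LaurentSeries ℚ) ≠ 0 := hcast b hb
  have hcE : (c : LaurentSeries ℚ) ≠ 0 := hcast c hc
  have hC : ∀ n : ℤ, evalAt (jqModC ℚ) (Polynomial.C n) = (n : LaurentSeries ℚ) := by
    intro n
    simp [evalAt]
  push_cast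
  rw [coe_phiQ, coe_phiQ, map_mul, map_mul, hC, hC, ← hr', ← hs', hrs]
  by_cases hs0 : Polynomial.aeval (jqModC ℚ) s = 0
  · rw [hs0, mul_zero, mul_zero, div_zero, div_zero]
  · field_simp

/-- the degree of `ℚ(j(q^d) : d ∣ N)` over `ℚ(j)` is at most `ψ(N)` -/
theorem finrank_fullOver_rat_le (N : ℕ) [NeZero N] :
    Module.finrank ↥(kJ ℚ) ↥(fullOver ℚ N) ≤ dedekindPsi N := by
  have h := Fermat.Agent.H88.relrank_full_le_dedekindPsi
    Fermat.Agent.H17.hasHeckeData_complex N
  have hKF : kJ ℚ ≤ modularFunctionFieldFullC ℚ N := by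
    rw [IntermediateField.adjoin_le_iff]
    rintro y hy
    rw [Set.mem_singleton_iff.mp hy]
    exact jqModC_mem_full ℚ N
  have h' : IntermediateField.relrank (kJ ℚ) (modularFunctionFieldFullC ℚ N) ≤
      (dedekindPsi N : Cardinal) := h
  rw [IntermediateField.relrank_eq_rank_of_le hKF] at h'
  have heq : IntermediateField.extendScalars hKF = fullOver ℚ N := by
    ext x
    rw [IntermediateField.mem_extendScalars, mem_fullOver_iff]
  rw [heq, ← Module.finrank_eq_rank] at h'
  exact_mod_cast h'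

/-- **the minimal polynomial over `ℤ[j]`** of an element of `ℤ[j(q^d) : d ∣ N]` -/
theorem exists_minpoly_int (N : ℕ) [NeZero N] {θ : LaurentSeries ℤ}
    (hθ : θ ∈ Algebra.adjoin ℤ (gensR ℤ N)) :
    ∃ P : Polynomial (Polynomial ℤ), P.Monic ∧ (P.map (evalAt (jqModC ℤ))).eval θ = 0 ∧
      P.natDegree ≤ dedekindPsi N := by
  classical
  letI algK : Algebra (Polynomial ℤ) ↥(kJ ℚ) := phiQ.toAlgebra
  letI algE : Algebra (Polynomial ℤ) (LaurentSeries ℚ) := (evalAt (jqModC ℚ)).toAlgebra
  haveI : IsScalarTower (Polynomial ℤ) ↥(kJ ℚ) (LaurentSeries ℚ) :=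
    IsScalarTower.of_algebraMap_eq fun P => (coe_phiQ P).symm
  haveI : FaithfulSMul (Polynomial ℤ) ↥(kJ ℚ) :=
    (faithfulSMul_iff_algebraMap_injective _ _).mpr phiQ_injective
  haveI : IsFractionRing (Polynomial ℤ) ↥(kJ ℚ) :=
    IsFractionRing.of_field _ _ exists_div_phiQ
  -- integrality of the generators
  have hj : IsIntegral (Polynomial ℤ) (jqModC ℚ) := by
    have : jqModC ℚ = algebraMap (Polynomial ℤ) (LaurentSeries ℚ) Polynomial.X := by
      show jqModC ℚ = evalAt (jqModC ℚ) Polynomial.X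
      simp [evalAt]
    rw [this]
    exact isIntegral_algebraMap
  have hint : ∀ x ∈ Algebra.adjoin ℤ (gensR ℤ N),
      IsIntegral (Polynomial ℤ) (coeffMap (Int.castRingHom ℚ) x) := by
    intro x hx
    induction hx using Algebra.adjoin_induction with
    | mem x hx =>
      obtain ⟨d, hd, -, rfl⟩ := hx
      haveI := hd
      rw [coeffMap_qExpand, coeffMap_jqModC, ← jLev_eq]
      exact isIntegral_jLev_of_isIntegral (S := ℚ) (R := Polynomial ℤ) hj d (NeZero.ne d)
    | algebraMap n =>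
      rw [coeffMap_algebraMap_int]
      have : ((n : ℤ) : LaurentSeries ℚ) =
          algebraMap (Polynomial ℤ) (LaurentSeries ℚ) (Polynomial.C n) := by
        show _ = evalAt (jqModC ℚ) (Polynomial.C n)
        simp [evalAt]
      rw [this]
      exact isIntegral_algebraMap
    | add x y _ _ hx hy => rw [map_add]; exact hx.add hy
    | mul x y _ _ hx hy => rw [map_mul]; exact hx.mul hy
  -- membership in the function field
  have hmem : ∀ x ∈ Algebra.adjoin ℤ (gensR ℤ N),
      coeffMap (Int.castRingHom ℚ) x ∈ fullOver ℚ N := by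
    intro x hx
    induction hx using Algebra.adjoin_induction with
    | mem x hx =>
      exact IntermediateField.subset_adjoin _ _ (coeffMap_mem_gensR (Int.castRingHom ℚ) N hx)
    | algebraMap n =>
      rw [coeffMap_algebraMap_int]
      exact intCast_mem _ n
    | add x y _ _ hx hy => rw [map_add]; exact add_mem hx hy
    | mul x y _ _ hx hy => rw [map_mul]; exact mul_mem hx hy
  set θQ := coeffMap (Int.castRingHom ℚ) θ with hθQ
  have hθint := hint θ hθ
  have hmin := minpoly.isIntegrallyClosed_eq_field_fractions' ↥(kJ ℚ) hθint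
  refine ⟨minpoly (Polynomial ℤ) θQ, minpoly.monic hθint, ?_, ?_⟩
  · have hinj : Function.Injective (coeffMap (Int.castRingHom ℚ)) :=
      Fermat.Agent.H67.coeffMap_injective_of_injective _ (RingHom.injective_int _)
    apply hinj
    rw [map_zero, Fermat.Agent.H67.coeffMap_eval_L, coeffMap_jqModC, Polynomial.eval_map]
    exact minpoly.aeval (Polynomial ℤ) θQ
  · have h1 : (minpoly (Polynomial ℤ) θQ).natDegree = (minpoly ↥(kJ ℚ) θQ).natDegree := by
      rw [hmin, (minpoly.monic hθint).natDegree_map]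
    rw [h1]
    have h2 : minpoly ↥(kJ ℚ) (⟨θQ, hmem θ hθ⟩ : ↥(fullOver ℚ N)) = minpoly ↥(kJ ℚ) θQ :=
      (minpoly.algebraMap_eq (FaithfulSMul.algebraMap_injective ↥(fullOver ℚ N)
        (LaurentSeries ℚ)) (⟨θQ, hmem θ hθ⟩ : ↥(fullOver ℚ N))).symm
    rw [← h2]
    exact (minpoly.natDegree_le _).trans (finrank_fullOver_rat_le N)

end Fermat.Agent.H27.KLGB
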