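import Mathlib

/-!
# KL-GB, part 0 (Mathlib only): the universal discriminant of a monic polynomial

For `P ∈ R[T]` and `n : ℕ`:

* `compN n P` : the companion matrix of size `n` (uses the coefficients of `P` below `n`);
* `gramN n P` : the matrix `(tr (compN n P ^ (i + j)))_{i, j < n}`;
* `discN n P` : its determinant.

`discN_map` : compatible with ring homomorphisms.
`discr_powerBasis_eq_discN` : for a power basis `pb`, `Algebra.discr A pb.basis = discN pb.dim
pb.minpolyGen`.
`discr_pow_eq_discN` : for a field extension `E / K`, `θ ∈ E` a root of the monic `P ∈ K[T]` of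
degree `n = [E : K]` which generates `E`: `Algebra.discr K (θ ^ i)_{i < n} = discN n P`.
-/

set_option autoImplicit false

noncomputable section

open Polynomial Matrix

namespace Fermat.Agent.H27.KLGB

section Defs

variable {R : Type*} [CommRing R]

/-- the companion matrix of size `n` of `P` -/
def compN (n : ℕ) (P : R[X]) : Matrix (Fin n) (Fin n) R :=
  Matrix.of fun i j =>
    if (j : ℕ) + 1 = n then -P.coeff i else if (i : ℕ) = j + 1 then 1 else 0

/-- the matrix of power sums `tr (C ^ (i + j))`, `C` the companion matrix -/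
def gramN (n : ℕ) (P : R[X]) : Matrix (Fin n) (Fin n) R :=
  Matrix.of fun i j => Matrix.trace (compN n P ^ ((i : ℕ) + (j : ℕ)))

/-- the universal discriminant -/
def discN (n : ℕ) (P : R[X]) : R := (gramN n P).det

variable {S : Type*} [CommRing S] (φ : R →+* S)

theorem compN_map (n : ℕ) (P : R[X]) : compN n (P.map φ) = (compN n P).map φ := by
  ext i j
  simp only [compN, Matrix.of_apply, Matrix.map_apply, Polynomial.coeff_map]
  split_ifs <;> simp

theorem gramN_map (n : ℕ) (P : R[X]) : gramN n (P.map φ) = (gramN n P).map φ := by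
  ext i j
  simp only [gramN, Matrix.of_apply, Matrix.map_apply]
  rw [compN_map, ← Matrix.map_pow]
  exact (AddMonoidHom.map_trace φ _).symm

theorem discN_map (n : ℕ) (P : R[X]) : discN n (P.map φ) = φ (discN n P) := by
  rw [discN, discN, gramN_map, ← RingHom.mapMatrix_apply, ← RingHom.map_det]

end Defs

section PowerBasis

variable {A S : Type*} [CommRing A] [CommRing S] [Algebra A S]

theorem discr_powerBasis_eq_discN (pb : PowerBasis A S) :
    Algebra.discr A pb.basis = discN pb.dim pb.minpolyGen := by
  classical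
  rw [Algebra.discr_def, discN]
  congr 1
  ext i j
  rw [Algebra.traceMatrix_apply, Algebra.traceForm_apply, gramN, Matrix.of_apply,
    Algebra.trace_eq_matrix_trace pb.basis, pb.basis_eq_pow, pb.basis_eq_pow, ← pow_add,
    map_pow, pb.leftMulMatrix]
  rfl

end PowerBasis

section Field

variable {K E : Type*} [Field K] [Field E] [Algebra K E]

/-- a root `θ` of a monic polynomial `P` of degree `[E : K]` whose minimal polynomial has degree
`[E : K]`: `P` is the minimal polynomial and `θ` generates `E` as an algebra -/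
theorem minpoly_eq_of_natDegree_eq [FiniteDimensional K E] (θ : E) (P : K[X]) (hP : P.Monic)
    (hroot : aeval θ P = 0) (hdeg : P.natDegree ≤ (minpoly K θ).natDegree) :
    minpoly K θ = P := by
  have hint : IsIntegral K θ := IsIntegral.of_finite K θ
  exact (Polynomial.eq_of_monic_of_dvd_of_natDegree_le (minpoly.monic hint) hP
    (minpoly.dvd K θ hroot) hdeg).symm

theorem adjoin_eq_top_of_natDegree_eq [FiniteDimensional K E] (θ : E)
    (hdeg : (minpoly K θ).natDegree = Module.finrank K E) :
    Algebra.adjoin K ({θ} : Set E) = ⊤ := by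
  have hint : IsIntegral K θ := IsIntegral.of_finite K θ
  have h1 : IntermediateField.adjoin K ({θ} : Set E) = ⊤ := by
    apply IntermediateField.eq_of_le_of_finrank_eq le_top
    rw [IntermediateField.adjoin.finrank hint, hdeg, IntermediateField.finrank_top']
  have h2 := IntermediateField.adjoin_simple_toSubalgebra_of_isAlgebraic hint.isAlgebraic
  rw [h1] at h2
  rw [← h2]
  rfl

/-- **discriminant of a power basis = universal discriminant of the minimal polynomial** -/
theorem discr_pow_eq_discN [FiniteDimensional K E] (θ : E) (P : K[X]) (n : ℕ) (hP : P.Monic)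
    (hn : P.natDegree = n) (hroot : aeval θ P = 0) (hfin : Module.finrank K E = n)
    (hdeg : (minpoly K θ).natDegree = n) :
    Algebra.discr K (fun i : Fin n => θ ^ (i : ℕ)) = discN n P := by
  have hint : IsIntegral K θ := IsIntegral.of_finite K θ
  have hmin : minpoly K θ = P :=
    minpoly_eq_of_natDegree_eq θ P hP hroot (by rw [hn, hdeg])
  have hadj : Algebra.adjoin K ({θ} : Set E) = ⊤ :=
    adjoin_eq_top_of_natDegree_eq θ (by rw [hdeg, hfin])
  obtain ⟨pb, hgen, hdim⟩ : ∃ pb : PowerBasis K E, pb.gen = θ ∧ pb.dim = n :=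
    ⟨PowerBasis.ofAdjoinEqTop hint hadj, PowerBasis.ofAdjoinEqTop_gen hint hadj,
      (PowerBasis.ofAdjoinEqTop_dim hint hadj).trans hdeg⟩
  subst hdim
  have h := discr_powerBasis_eq_discN pb
  rw [pb.minpolyGen_eq, hgen, hmin, pb.coe_basis, hgen] at h
  exact h

/-- in the separable case the discriminant of the power basis does not vanish -/
theorem discr_pow_ne_zero [FiniteDimensional K E] [Algebra.IsSeparable K E] (θ : E) (n : ℕ)
    (hfin : Module.finrank K E = n) (hdeg : (minpoly K θ).natDegree = n) :
    Algebra.discr K (fun i : Fin n => θ ^ (i : ℕ)) ≠ 0 := by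
  have hint : IsIntegral K θ := IsIntegral.of_finite K θ
  have hadj : Algebra.adjoin K ({θ} : Set E) = ⊤ :=
    adjoin_eq_top_of_natDegree_eq θ (by rw [hdeg, hfin])
  obtain ⟨pb, hgen, hdim⟩ : ∃ pb : PowerBasis K E, pb.gen = θ ∧ pb.dim = n :=
    ⟨PowerBasis.ofAdjoinEqTop hint hadj, PowerBasis.ofAdjoinEqTop_gen hint hadj,
      (PowerBasis.ofAdjoinEqTop_dim hint hadj).trans hdeg⟩
  subst hdim
  have h := Algebra.discr_not_zero_of_basis K pb.basis
  rw [pb.coe_basis, hgen] at h
  exact h

/-- the powers `1, θ, …, θ ^ (n - 1)` are linearly independent and span -/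
theorem exists_basis_pow [FiniteDimensional K E] (θ : E) (n : ℕ)
    (hfin : Module.finrank K E = n) (hdeg : (minpoly K θ).natDegree = n) :
    ∃ b : Module.Basis (Fin n) K E, ∀ i, b i = θ ^ (i : ℕ) := by
  have hint : IsIntegral K θ := IsIntegral.of_finite K θ
  have hadj : Algebra.adjoin K ({θ} : Set E) = ⊤ :=
    adjoin_eq_top_of_natDegree_eq θ (by rw [hdeg, hfin])
  obtain ⟨pb, hgen, hdim⟩ : ∃ pb : PowerBasis K E, pb.gen = θ ∧ pb.dim = n :=
    ⟨PowerBasis.ofAdjoinEqTop hint hadj, PowerBasis.ofAdjoinEqTop_gen hint hadj,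
      (PowerBasis.ofAdjoinEqTop_dim hint hadj).trans hdeg⟩
  subst hdim
  exact ⟨pb.basis, fun i => by rw [pb.basis_eq_pow, hgen]⟩

end Field

end Fermat.Agent.H27.KLGB
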