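import Mathlib
import Fermat.Agent.H27.KLGB.Disc
import Fermat.Agent.H27.KLGB.CharZero

/-!
# KL-GB, core (x = j): a power basis defined over `ℤ` with discriminant prime to `ℓ`

`goodPrimitive_j` : for `ℓ ∤ N` there are `θ ∈ ℤ[j(q^d) : d ∣ N] ⊆ ℤ((q))` and a monic
`P ∈ ℤ[X][T]` of degree `ψ(N)` with `P(j, θ) = 0` such that the universal discriminant
`discN ψ(N) P ∈ ℤ[X]` is nonzero modulo `ℓ`; moreover the reduction `θ̄` generates
`F̄ = 𝔽_ℓ(j(q^d) : d ∣ N)` over `𝔽_ℓ(j)`, `[F̄ : 𝔽_ℓ(j)] = ψ(N)`, and the reduction of `P` is the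
minimal polynomial of `θ̄`.
-/

set_option autoImplicit false
set_option linter.style.haveILetI false
set_option synthInstance.maxHeartbeats 400000

noncomputable section

open ModularCurve Polynomial Fermat.Agent.H27 IntermediateField

namespace Fermat.Agent.H27.KLGB

section Phi

variable (k : Type*) [Field k]

/-- `ℤ[X] → k(j)`, `X ↦ j` -/
def phiK : Polynomial ℤ →+* ↥(kJ k) :=
  Polynomial.eval₂RingHom (Int.castRingHom ↥(kJ k)) (jK k)

theorem algebraMap_comp_phiK :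
    (algebraMap ↥(kJ k) (LaurentSeries k)).comp (phiK k) = evalAt (jqModC k) := by
  apply Polynomial.ringHom_ext
  · intro n
    simp [phiK, evalAt]
  · simp [phiK, evalAt]

theorem aeval_map_phiK (P : Polynomial (Polynomial ℤ)) (y : LaurentSeries k) :
    Polynomial.aeval y (P.map (phiK k)) = (P.map (evalAt (jqModC k))).eval y := by
  rw [Polynomial.aeval_def, Polynomial.eval₂_map, algebraMap_comp_phiK, Polynomial.eval_map]

/-- `phiK` factors through the reduction of the coefficients -/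
theorem phiK_eq_zero_of_map_eq_zero (d : Polynomial ℤ)
    (hd : d.map (Int.castRingHom k) = 0) : phiK k d = 0 := by
  have h : phiK k d = Polynomial.eval₂ (algebraMap k ↥(kJ k)) (jK k)
      (d.map (Int.castRingHom k)) := by
    rw [Polynomial.eval₂_map]
    show Polynomial.eval₂ _ _ _ = _
    congr 1
    exact RingHom.ext_int _ _
  rw [h, hd, Polynomial.eval₂_zero]

end Phi

/-- **KL-GB core, `x = j`.** -/
theorem goodPrimitive_j (N : ℕ) [NeZero N] (ℓ : ℕ) [Fact ℓ.Prime] (hℓN : ¬ ℓ ∣ N) :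
    ∃ (θ : LaurentSeries ℤ) (P : Polynomial (Polynomial ℤ)),
      θ ∈ Algebra.adjoin ℤ (gensR ℤ N) ∧ P.Monic ∧ P.natDegree = dedekindPsi N ∧
      (P.map (evalAt (jqModC ℤ))).eval θ = 0 ∧
      (discN (dedekindPsi N) P).map (Int.castRingHom (ZMod ℓ)) ≠ 0 ∧
      Module.finrank ↥(kJ (ZMod ℓ)) ↥(fullOver (ZMod ℓ) N) = dedekindPsi N ∧
      minpoly ↥(kJ (ZMod ℓ)) (coeffMap (Int.castRingHom (ZMod ℓ)) θ) =
        P.map (phiK (ZMod ℓ)) := by
  classical
  obtain ⟨θb, hθb, hθbF, hθbdeg⟩ := exists_primitive_mem_adjoin ℓ N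
  obtain ⟨θ, hθ, rfl⟩ := exists_lift_of_mem_adjoin ℓ N hθb
  obtain ⟨P, hPm, hPθ, hPdeg⟩ := exists_minpoly_int N hθ
  set θb := coeffMap (Int.castRingHom (ZMod ℓ)) θ with hθbdef
  set θL : ↥(fullOver (ZMod ℓ) N) := ⟨θb, hθbF⟩ with hθL
  have hinjL : Function.Injective (algebraMap ↥(fullOver (ZMod ℓ) N) (LaurentSeries (ZMod ℓ))) :=
    FaithfulSMul.algebraMap_injective _ _
  have hminL : minpoly ↥(kJ (ZMod ℓ)) θL = minpoly ↥(kJ (ZMod ℓ)) θb :=
    (minpoly.algebraMap_eq hinjL θL).symm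
  have hpsi := dedekindPsi_le_finrank_fullOver ℓ N hℓN
  -- the reduction of `P` kills `θ̄`
  have hroot : Polynomial.aeval θb (P.map (phiK (ZMod ℓ))) = 0 := by
    rw [aeval_map_phiK]
    have := eval_map_coeffMap (Int.castRingHom (ZMod ℓ)) P _ _ hPθ
    rwa [coeffMap_jqModC] at this
  have hrootL : Polynomial.aeval θL (P.map (phiK (ZMod ℓ))) = 0 := by
    apply hinjL
    rw [map_zero, ← Polynomial.aeval_algebraMap_apply]
    exact hroot
  have hmapdeg : (P.map (phiK (ZMod ℓ))).natDegree = P.natDegree := hPm.natDegree_map _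
  have hdegL : (minpoly ↥(kJ (ZMod ℓ)) θL).natDegree =
      Module.finrank ↥(kJ (ZMod ℓ)) ↥(fullOver (ZMod ℓ) N) := by rw [hminL]; exact hθbdeg
  have hminP : minpoly ↥(kJ (ZMod ℓ)) θL = P.map (phiK (ZMod ℓ)) :=
    minpoly_eq_of_natDegree_eq θL _ (hPm.map _) hrootL (by rw [hmapdeg, hdegL]; omega)
  have hdeg_eq : P.natDegree = Module.finrank ↥(kJ (ZMod ℓ)) ↥(fullOver (ZMod ℓ) N) := by
    rw [← hmapdeg, ← hminP, hdegL]
  have hfin : Module.finrank ↥(kJ (ZMod ℓ)) ↥(fullOver (ZMod ℓ) N) = dedekindPsi N := by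
    omega
  have hPnat : P.natDegree = dedekindPsi N := by omega
  refine ⟨θ, P, hθ, hPm, hPnat, hPθ, ?_, hfin, by rw [← hminL, hminP]⟩
  -- the discriminant
  intro hd
  have h1 := discr_pow_eq_discN θL (P.map (phiK (ZMod ℓ))) (dedekindPsi N) (hPm.map _)
    (by rw [hmapdeg, hPnat]) hrootL hfin (by rw [hdegL, hfin])
  have h2 := discr_pow_ne_zero θL (dedekindPsi N) hfin (by rw [hdegL, hfin])
  apply h2
  rw [h1, discN_map]
  exact phiK_eq_zero_of_map_eq_zero (ZMod ℓ) _ hd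

end Fermat.Agent.H27.KLGB
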