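import Mathlib
import Fermat.Agent.H27.KLGB.Core
import Fermat.Agent.H57.IgusaDescent

/-!
# KL-GB, part 6 (x = j): the primitive element over every field of characteristic `0`

`goodPrimitive_j_charZero` : the pair `(θ, P)` of `goodPrimitive_j` can be chosen such that, for
EVERY field `K₁` of characteristic `0`, the image `θ₁` of `θ` in `K₁((q))` generates
`K₁(j(q^d) : d ∣ N)` over `K₁(j)` and has degree `ψ(N)` over `K₁(j)`.
-/

set_option autoImplicit false
set_option linter.style.haveILetI false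
set_option synthInstance.maxHeartbeats 400000

noncomputable section

open ModularCurve Polynomial Fermat.Agent.H27 IntermediateField

namespace Fermat.Agent.H27.KLGB

/-- `exists_minpoly_int`, with the minimal polynomial over `ℚ(j)` recorded -/
theorem exists_minpoly_int_rat (N : ℕ) [NeZero N] {θ : LaurentSeries ℤ}
    (hθ : θ ∈ Algebra.adjoin ℤ (gensR ℤ N)) :
    ∃ P : Polynomial (Polynomial ℤ), P.Monic ∧ (P.map (evalAt (jqModC ℤ))).eval θ = 0 ∧
      P.natDegree ≤ dedekindPsi N ∧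
      coeffMap (Int.castRingHom ℚ) θ ∈ fullOver ℚ N ∧
      minpoly ↥(kJ ℚ) (coeffMap (Int.castRingHom ℚ) θ) = P.map phiQ := by
  classical
  letI algK : Algebra (Polynomial ℤ) ↥(kJ ℚ) := phiQ.toAlgebra
  letI algE : Algebra (Polynomial ℤ) (LaurentSeries ℚ) := (evalAt (jqModC ℚ)).toAlgebra
  haveI : IsScalarTower (Polynomial ℤ) ↥(kJ ℚ) (LaurentSeries ℚ) :=
    IsScalarTower.of_algebraMap_eq fun P => (coe_phiQ P).symm
  haveI : FaithfulSMul (Polynomial ℤ) ↥(kJ ℚ) :=
    (faithfulSMul_iff_algebraMap_injective _ _).mpr phiQ_injective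
  haveI : IsFractionRing (Polynomial ℤ) ↥(kJ ℚ) :=
    IsFractionRing.of_field _ _ exists_div_phiQ
  -- integrality of the generators
  have hj : IsIntegral (Polynomial ℤ) (jqModC ℚ) := by
    have : jqModC ℚ = algebraMap (Polynomial ℤ) (LaurentSeries ℚ) Polynomial.X := by
      show jqModC ℚ = evalAt (jqModC ℚ) Polynomial.X
      simp [evalAt]
    rw [this]
    exact isIntegral_algebraMap
  have hint : ∀ x ∈ Algebra.adjoin ℤ (gensR ℤ N),
      IsIntegral (Polynomial ℤ) (coeffMap (Int.castRingHom ℚ) x) := by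
    intro x hx
    induction hx using Algebra.adjoin_induction with
    | mem x hx =>
      obtain ⟨d, hd, -, rfl⟩ := hx
      haveI := hd
      rw [coeffMap_qExpand, coeffMap_jqModC, ← jLev_eq]
      exact isIntegral_jLev_of_isIntegral (S := ℚ) (R := Polynomial ℤ) hj d (NeZero.ne d)
    | algebraMap n =>
      rw [coeffMap_algebraMap_int]
      have : ((n : ℤ) : LaurentSeries ℚ) =
          algebraMap (Polynomial ℤ) (LaurentSeries ℚ) (Polynomial.C n) := by
        show _ = evalAt (jqModC ℚ) (Polynomial.C n)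
        simp [evalAt]
      rw [this]
      exact isIntegral_algebraMap
    | add x y _ _ hx hy => rw [map_add]; exact hx.add hy
    | mul x y _ _ hx hy => rw [map_mul]; exact hx.mul hy
  -- membership in the function field
  have hmem : ∀ x ∈ Algebra.adjoin ℤ (gensR ℤ N),
      coeffMap (Int.castRingHom ℚ) x ∈ fullOver ℚ N := by
    intro x hx
    induction hx using Algebra.adjoin_induction with
    | mem x hx =>
      exact IntermediateField.subset_adjoin _ _ (coeffMap_mem_gensR (Int.castRingHom ℚ) N hx)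
    | algebraMap n =>
      rw [coeffMap_algebraMap_int]
      exact intCast_mem _ n
    | add x y _ _ hx hy => rw [map_add]; exact add_mem hx hy
    | mul x y _ _ hx hy => rw [map_mul]; exact mul_mem hx hy
  set θQ := coeffMap (Int.castRingHom ℚ) θ with hθQ
  have hθint := hint θ hθ
  have hmin := minpoly.isIntegrallyClosed_eq_field_fractions' ↥(kJ ℚ) hθint
  refine ⟨minpoly (Polynomial ℤ) θQ, minpoly.monic hθint, ?_, ?_, hmem θ hθ, hmin⟩
  · have hinj : Function.Injective (coeffMap (Int.castRingHom ℚ)) :=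
      Fermat.Agent.H67.coeffMap_injective_of_injective _ (RingHom.injective_int _)
    apply hinj
    rw [map_zero, Fermat.Agent.H67.coeffMap_eval_L, coeffMap_jqModC, Polynomial.eval_map]
    exact minpoly.aeval (Polynomial ℤ) θQ
  · have h1 : (minpoly (Polynomial ℤ) θQ).natDegree = (minpoly ↥(kJ ℚ) θQ).natDegree := by
      rw [hmin, (minpoly.monic hθint).natDegree_map]
    rw [h1]
    have h2 : minpoly ↥(kJ ℚ) (⟨θQ, hmem θ hθ⟩ : ↥(fullOver ℚ N)) = minpoly ↥(kJ ℚ) θQ :=
      (minpoly.algebraMap_eq (FaithfulSMul.algebraMap_injective ↥(fullOver ℚ N)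
        (LaurentSeries ℚ)) (⟨θQ, hmem θ hθ⟩ : ↥(fullOver ℚ N))).symm
    rw [← h2]
    exact (minpoly.natDegree_le _).trans (finrank_fullOver_rat_le N)

/-- `goodPrimitive_j`, with the minimal polynomial over `ℚ(j)` recorded -/
theorem goodPrimitive_j_rat (N : ℕ) [NeZero N] (ℓ : ℕ) [Fact ℓ.Prime] (hℓN : ¬ ℓ ∣ N) :
    ∃ (θ : LaurentSeries ℤ) (P : Polynomial (Polynomial ℤ)),
      θ ∈ Algebra.adjoin ℤ (gensR ℤ N) ∧ P.Monic ∧ P.natDegree = dedekindPsi N ∧
      (P.map (evalAt (jqModC ℤ))).eval θ = 0 ∧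
      (discN (dedekindPsi N) P).map (Int.castRingHom (ZMod ℓ)) ≠ 0 ∧
      Module.finrank ↥(kJ (ZMod ℓ)) ↥(fullOver (ZMod ℓ) N) = dedekindPsi N ∧
      minpoly ↥(kJ (ZMod ℓ)) (coeffMap (Int.castRingHom (ZMod ℓ)) θ) =
        P.map (phiK (ZMod ℓ)) ∧
      coeffMap (Int.castRingHom ℚ) θ ∈ fullOver ℚ N ∧
      minpoly ↥(kJ ℚ) (coeffMap (Int.castRingHom ℚ) θ) = P.map phiQ := by
  classical
  obtain ⟨θb, hθb, hθbF, hθbdeg⟩ := exists_primitive_mem_adjoin ℓ N
  obtain ⟨θ, hθ, rfl⟩ := exists_lift_of_mem_adjoin ℓ N hθb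
  obtain ⟨P, hPm, hPθ, hPdeg, hθQ, hminQ⟩ := exists_minpoly_int_rat N hθ
  set θb := coeffMap (Int.castRingHom (ZMod ℓ)) θ with hθbdef
  set θL : ↥(fullOver (ZMod ℓ) N) := ⟨θb, hθbF⟩ with hθL
  have hinjL : Function.Injective (algebraMap ↥(fullOver (ZMod ℓ) N) (LaurentSeries (ZMod ℓ))) :=
    FaithfulSMul.algebraMap_injective _ _
  have hminL : minpoly ↥(kJ (ZMod ℓ)) θL = minpoly ↥(kJ (ZMod ℓ)) θb :=
    (minpoly.algebraMap_eq hinjL θL).symm
  have hpsi := dedekindPsi_le_finrank_fullOver ℓ N hℓN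
  -- the reduction of `P` kills `θ̄`
  have hroot : Polynomial.aeval θb (P.map (phiK (ZMod ℓ))) = 0 := by
    rw [aeval_map_phiK]
    have := eval_map_coeffMap (Int.castRingHom (ZMod ℓ)) P _ _ hPθ
    rwa [coeffMap_jqModC] at this
  have hrootL : Polynomial.aeval θL (P.map (phiK (ZMod ℓ))) = 0 := by
    apply hinjL
    rw [map_zero, ← Polynomial.aeval_algebraMap_apply]
    exact hroot
  have hmapdeg : (P.map (phiK (ZMod ℓ))).natDegree = P.natDegree := hPm.natDegree_map _
  have hdegL : (minpoly ↥(kJ (ZMod ℓ)) θL).natDegree =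
      Module.finrank ↥(kJ (ZMod ℓ)) ↥(fullOver (ZMod ℓ) N) := by rw [hminL]; exact hθbdeg
  have hminP : minpoly ↥(kJ (ZMod ℓ)) θL = P.map (phiK (ZMod ℓ)) :=
    minpoly_eq_of_natDegree_eq θL _ (hPm.map _) hrootL (by rw [hmapdeg, hdegL]; omega)
  have hdeg_eq : P.natDegree = Module.finrank ↥(kJ (ZMod ℓ)) ↥(fullOver (ZMod ℓ) N) := by
    rw [← hmapdeg, ← hminP, hdegL]
  have hfin : Module.finrank ↥(kJ (ZMod ℓ)) ↥(fullOver (ZMod ℓ) N) = dedekindPsi N := by
    omega
  have hPnat : P.natDegree = dedekindPsi N := by omega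
  refine ⟨θ, P, hθ, hPm, hPnat, hPθ, ?_, hfin, by rw [← hminL, hminP], hθQ, hminQ⟩
  -- the discriminant
  intro hd
  have h1 := discr_pow_eq_discN θL (P.map (phiK (ZMod ℓ))) (dedekindPsi N) (hPm.map _)
    (by rw [hmapdeg, hPnat]) hrootL hfin (by rw [hdegL, hfin])
  have h2 := discr_pow_ne_zero θL (dedekindPsi N) hfin (by rw [hdegL, hfin])
  apply h2
  rw [h1, discN_map]
  exact phiK_eq_zero_of_map_eq_zero (ZMod ℓ) _ hd

section Transport

/-- `coeffMap f` maps `k₀(j)` into `k(j)` -/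
theorem coeffMap_mem_kJ {k₀ k : Type*} [Field k₀] [Field k] (f : k₀ →+* k)
    {y : LaurentSeries k₀} (hy : y ∈ kJ k₀) : coeffMap f y ∈ kJ k := by
  have hle : (kJ k₀).toSubfield ≤ Subfield.comap (coeffMap f) (kJ k).toSubfield := by
    rw [IntermediateField.adjoin_toSubfield, Subfield.closure_le]
    rintro w (hw | hw)
    · obtain ⟨a, rfl⟩ := hw
      show coeffMap f (algebraMap k₀ _ a) ∈ kJ k
      rw [algebraMap_laurentSeries_eq_single, coeffMap_single,
        ← algebraMap_laurentSeries_eq_single]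
      exact (kJ k).algebraMap_mem _
    · rw [Set.mem_singleton_iff] at hw
      subst hw
      show coeffMap f (jqModC k₀) ∈ kJ k
      rw [coeffMap_jqModC]
      exact IntermediateField.mem_adjoin_simple_self _ _
  exact hle hy

/-- `coeffMap f` maps `k₀(j)(θ)` into `k(j)(f θ)` -/
theorem coeffMap_mem_adjoin_simple {k₀ k : Type*} [Field k₀] [Field k] (f : k₀ →+* k)
    (θ : LaurentSeries k₀) {y : LaurentSeries k₀} (hy : y ∈ (kJ k₀)⟮θ⟯) :
    coeffMap f y ∈ (kJ k)⟮coeffMap f θ⟯ := by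
  have hle : ((kJ k₀)⟮θ⟯).toSubfield ≤
      Subfield.comap (coeffMap f) ((kJ k)⟮coeffMap f θ⟯).toSubfield := by
    rw [IntermediateField.adjoin_toSubfield, Subfield.closure_le]
    rintro z (hz | hz)
    · obtain ⟨c, rfl⟩ := hz
      have hc : coeffMap f (c : LaurentSeries k₀) ∈ kJ k := coeffMap_mem_kJ f c.2
      show coeffMap f (c : LaurentSeries k₀) ∈ (kJ k)⟮coeffMap f θ⟯
      exact ((kJ k)⟮coeffMap f θ⟯).algebraMap_mem (⟨_, hc⟩ : ↥(kJ k))
    · rw [Set.mem_singleton_iff] at hz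
      subst hz
      exact IntermediateField.mem_adjoin_simple_self _ _
  exact hle hy

end Transport

section CharZeroField

variable (K₁ : Type) [Field K₁] [CharZero K₁]

/-- the degree of `K₁(j(q^d) : d ∣ N)` over `K₁(j)` is at least `ψ(N)` in characteristic `0` -/
theorem dedekindPsi_le_finrank_fullOver_charZero (N : ℕ) [NeZero N] :
    dedekindPsi N ≤ Module.finrank ↥(kJ K₁) ↥(fullOver K₁ N) := by
  haveI : CharZero (AlgebraicClosure K₁) :=
    charZero_of_injective_algebraMap (algebraMap K₁ (AlgebraicClosure K₁)).injective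
  have hN : (N : AlgebraicClosure K₁) ≠ 0 := Nat.cast_ne_zero.mpr (NeZero.ne N)
  have hM := Fermat.Agent.H67.hasHeckeData_of_complex Fermat.Agent.H17.hasHeckeData_complex
    (AlgebraicClosure K₁)
  have h := (dedekindPsi_le_relrank_geom_of (AlgebraicClosure K₁) hM
    (unitNormStatement_of_hasHeckeData _ hM) N hN).trans
    (Fermat.Agent.H57.relrank_descent_of_isAlgebraic K₁ (AlgebraicClosure K₁) N)
  have hKF : kJ K₁ ≤ modularFunctionFieldFullC K₁ N := by
    rw [IntermediateField.adjoin_le_iff]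
    rintro y hy
    rw [Set.mem_singleton_iff.mp hy]
    exact jqModC_mem_full K₁ N
  rw [IntermediateField.relrank_eq_rank_of_le hKF] at h
  have heq : IntermediateField.extendScalars hKF = fullOver K₁ N := by
    ext x
    rw [IntermediateField.mem_extendScalars, mem_fullOver_iff]
  rw [heq, ← Module.finrank_eq_rank] at h
  exact_mod_cast h

end CharZeroField

/-- the characteristic `0` property of a primitive element `θ ∈ ℤ[j(q^d) : d ∣ N]`: over every
field `K₁` of characteristic `0` its image generates `K₁(j(q^d) : d ∣ N)` over `K₁(j)` and has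
degree `ψ(N)` -/
def GeneratesCharZero (N : ℕ) (θ : LaurentSeries ℤ) : Prop :=
  ∀ (K₁ : Type) [Field K₁] [CharZero K₁],
    coeffMap (Int.castRingHom K₁) θ ∈ modularFunctionFieldFullC K₁ N ∧
    (∀ y ∈ modularFunctionFieldFullC K₁ N,
      y ∈ (kJ K₁)⟮coeffMap (Int.castRingHom K₁) θ⟯) ∧
    (minpoly ↥(kJ K₁) (coeffMap (Int.castRingHom K₁) θ)).natDegree = dedekindPsi N

/-- **KL-GB core, `x = j`, full form**: the seven properties of `goodPrimitive_j` and the
generation property over every field of characteristic `0`, for the SAME pair `(θ, P)`. -/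
theorem goodPrimitive_j_full (N : ℕ) [NeZero N] (ℓ : ℕ) [Fact ℓ.Prime] (hℓN : ¬ ℓ ∣ N) :
    ∃ (θ : LaurentSeries ℤ) (P : Polynomial (Polynomial ℤ)),
      θ ∈ Algebra.adjoin ℤ (gensR ℤ N) ∧ P.Monic ∧ P.natDegree = dedekindPsi N ∧
      (P.map (evalAt (jqModC ℤ))).eval θ = 0 ∧
      (discN (dedekindPsi N) P).map (Int.castRingHom (ZMod ℓ)) ≠ 0 ∧
      Module.finrank ↥(kJ (ZMod ℓ)) ↥(fullOver (ZMod ℓ) N) = dedekindPsi N ∧
      minpoly ↥(kJ (ZMod ℓ)) (coeffMap (Int.castRingHom (ZMod ℓ)) θ) =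
        P.map (phiK (ZMod ℓ)) ∧
      GeneratesCharZero N θ := by
  classical
  obtain ⟨θ, P, hθ, hPm, hPnat, hPθ, hdisc, hfinL, hminL, hθQ, hminQ⟩ :=
    goodPrimitive_j_rat N ℓ hℓN
  refine ⟨θ, P, hθ, hPm, hPnat, hPθ, hdisc, hfinL, hminL, ?_⟩
  -- generation over `ℚ`
  set θQ := coeffMap (Int.castRingHom ℚ) θ with hθQdef
  have hdegQ : (minpoly ↥(kJ ℚ) θQ).natDegree = dedekindPsi N := by
    rw [hminQ, hPm.natDegree_map, hPnat]
  have hintQ : IsIntegral ↥(kJ ℚ) θQ := by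
    refine ⟨P.map phiQ, hPm.map _, ?_⟩
    rw [← hminQ]
    exact minpoly.aeval _ _
  have hleQ : (kJ ℚ)⟮θQ⟯ ≤ fullOver ℚ N := by
    rw [IntermediateField.adjoin_simple_le_iff]
    exact hθQ
  have hgenQ : (kJ ℚ)⟮θQ⟯ = fullOver ℚ N := by
    apply IntermediateField.eq_of_le_of_finrank_le hleQ
    rw [IntermediateField.adjoin.finrank hintQ, hdegQ]
    exact finrank_fullOver_rat_le N
  intro K₁ _ _
  set θ₁ := coeffMap (Int.castRingHom K₁) θ with hθ₁def
  have hθ₁ : coeffMap (Rat.castHom K₁) θQ = θ₁ := by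
    rw [hθQdef, coeffMap_coeffMap]
    exact coeffMap_congr (RingHom.ext_int _ _) θ
  -- membership
  have hmem : ∀ x ∈ Algebra.adjoin ℤ (gensR ℤ N),
      coeffMap (Int.castRingHom K₁) x ∈ fullOver K₁ N := by
    intro x hx
    induction hx using Algebra.adjoin_induction with
    | mem x hx =>
      exact IntermediateField.subset_adjoin _ _ (coeffMap_mem_gensR (Int.castRingHom K₁) N hx)
    | algebraMap n =>
      rw [coeffMap_algebraMap_int]
      exact intCast_mem _ n
    | add x y _ _ hx hy => rw [map_add]; exact add_mem hx hy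
    | mul x y _ _ hx hy => rw [map_mul]; exact mul_mem hx hy
  have hθ₁F : θ₁ ∈ fullOver K₁ N := hmem θ hθ
  -- generation over `K₁`
  have hgen : fullOver K₁ N ≤ (kJ K₁)⟮θ₁⟯ := by
    rw [IntermediateField.adjoin_le_iff]
    rintro x ⟨d, hd, hdN, rfl⟩
    have h1 : qExpand ℚ d (jqModC ℚ) ∈ (kJ ℚ)⟮θQ⟯ := by
      rw [hgenQ]
      exact IntermediateField.subset_adjoin _ _ ⟨d, hd, hdN, rfl⟩
    have h2 := coeffMap_mem_adjoin_simple (Rat.castHom K₁) θQ h1
    rwa [coeffMap_qExpand, coeffMap_jqModC, hθ₁] at h2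
  have hroot : Polynomial.aeval θ₁ (P.map (phiK K₁)) = 0 := by
    rw [aeval_map_phiK]
    have := eval_map_coeffMap (Int.castRingHom K₁) P _ _ hPθ
    rwa [coeffMap_jqModC] at this
  have hint₁ : IsIntegral ↥(kJ K₁) θ₁ := ⟨P.map (phiK K₁), hPm.map _, hroot⟩
  have hle₁ : (kJ K₁)⟮θ₁⟯ ≤ fullOver K₁ N := by
    rw [IntermediateField.adjoin_simple_le_iff]
    exact hθ₁F
  have heq₁ : (kJ K₁)⟮θ₁⟯ = fullOver K₁ N := le_antisymm hle₁ hgen
  refine ⟨(mem_fullOver_iff K₁ N _).mp hθ₁F, ?_, ?_⟩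
  · intro y hy
    exact hgen ((mem_fullOver_iff K₁ N y).mpr hy)
  · apply le_antisymm
    · have := Polynomial.natDegree_le_natDegree
        (minpoly.min ↥(kJ K₁) θ₁ (hPm.map (phiK K₁)) hroot)
      rwa [hPm.natDegree_map, hPnat] at this
    · rw [← IntermediateField.adjoin.finrank hint₁, heq₁]
      exact dedekindPsi_le_finrank_fullOver_charZero K₁ N

/-- **KL-GB core, `x = j`, over every field of characteristic `0`.** -/
theorem goodPrimitive_j_charZero (N : ℕ) [NeZero N] (ℓ : ℕ) [Fact ℓ.Prime] (hℓN : ¬ ℓ ∣ N) :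
    ∃ (θ : LaurentSeries ℤ) (P : Polynomial (Polynomial ℤ)),
      θ ∈ Algebra.adjoin ℤ (gensR ℤ N) ∧ P.Monic ∧ P.natDegree = dedekindPsi N ∧
      (P.map (evalAt (jqModC ℤ))).eval θ = 0 ∧
      (discN (dedekindPsi N) P).map (Int.castRingHom (ZMod ℓ)) ≠ 0 ∧
      ∀ (K₁ : Type) [Field K₁] [CharZero K₁],
        coeffMap (Int.castRingHom K₁) θ ∈ modularFunctionFieldFullC K₁ N ∧
        (∀ y ∈ modularFunctionFieldFullC K₁ N,
          y ∈ (kJ K₁)⟮coeffMap (Int.castRingHom K₁) θ⟯) ∧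
        (minpoly ↥(kJ K₁) (coeffMap (Int.castRingHom K₁) θ)).natDegree = dedekindPsi N := by
  obtain ⟨θ, P, h1, h2, h3, h4, h5, -, -, h8⟩ := goodPrimitive_j_full N ℓ hℓN
  exact ⟨θ, P, h1, h2, h3, h4, h5, h8⟩

end Fermat.Agent.H27.KLGB
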