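import Mathlib

/-!
# KL-GB, part 7 (Mathlib only): transfer of a degree computation along an embedding

`E` a field with an embedding `ι : E → Ω`, `K ⊆ E` a subfield whose image is the intermediate
field `K' ⊆ Ω`.  If `ι θ` has degree `n` over `K'`, the image of `E` is contained in `K'(ι θ)` and
`θ` is killed by a monic polynomial of degree `n` over `K`, then `[E : K] = n = deg_K θ`.
-/

set_option autoImplicit false

noncomputable section

open Polynomial IntermediateField

namespace Fermat.Agent.H27.KLGB

theorem transfer_degree {k Ω E : Type*} [Field k] [Field Ω] [Algebra k Ω] [Field E]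
    (ι : E →+* Ω) (K : Subfield E) (K' : IntermediateField k Ω)
    (hK : ∀ y : Ω, y ∈ K' ↔ ∃ c ∈ K, ι c = y)
    (θ : E) (n : ℕ)
    (Q : Polynomial K) (hQ : Q.Monic) (hQn : Q.natDegree = n) (hQθ : aeval θ Q = 0)
    (hgen : ∀ e : E, ι e ∈ K'⟮ι θ⟯)
    (hdeg : (minpoly K' (ι θ)).natDegree = n) :
    FiniteDimensional K E ∧ Module.finrank K E = n ∧ (minpoly K θ).natDegree = n := by
  classical
  have hint : IsIntegral K θ := ⟨Q, hQ, hQθ⟩
  let σ : K →+* K' := (ι.comp K.subtype).codRestrict K' (fun c => (hK _).mpr ⟨c, c.2, rfl⟩)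
  have hσ : (algebraMap K' Ω).comp σ = ι.comp (algebraMap K E) := by
    ext c
    rfl
  -- degree
  have h1 : n ≤ (minpoly K θ).natDegree := by
    have hroot : aeval (ι θ) ((minpoly K θ).map σ) = 0 := by
      rw [aeval_def, eval₂_map, hσ, ← hom_eval₂, ← aeval_def, minpoly.aeval, map_zero]
    have := natDegree_le_natDegree (minpoly.min K' (ι θ) ((minpoly.monic hint).map σ) hroot)
    rwa [hdeg, (minpoly.monic hint).natDegree_map] at this
  have h2 : (minpoly K θ).natDegree ≤ n := by
    have := natDegree_le_natDegree (minpoly.min K θ hQ hQθ)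
    rwa [hQn] at this
  have hmin : (minpoly K θ).natDegree = n := le_antisymm h2 h1
  -- generation
  have htop : K⟮θ⟯ = ⊤ := by
    rw [eq_top_iff]
    intro e _
    have hle : (K'⟮ι θ⟯).toSubfield ≤ (K⟮θ⟯).toSubfield.map ι := by
      rw [IntermediateField.adjoin_toSubfield, Subfield.closure_le]
      rintro z (hz | hz)
      · obtain ⟨c', rfl⟩ := hz
        obtain ⟨c, hc, hcc⟩ := (hK _).mp c'.2
        exact ⟨c, (K⟮θ⟯).algebraMap_mem ⟨c, hc⟩, hcc⟩
      · rw [Set.mem_singleton_iff] at hz
        subst hz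
        exact ⟨θ, mem_adjoin_simple_self K θ, rfl⟩
    obtain ⟨e', he', hee⟩ := hle (hgen e)
    rw [← ι.injective hee]
    exact he'
  have hfin : Module.finrank K E = n := by
    rw [← IntermediateField.finrank_top', ← htop, adjoin.finrank hint, hmin]
  refine ⟨?_, hfin, hmin⟩
  have hpos : 0 < Module.finrank K E := by
    rw [hfin, ← hmin]
    exact minpoly.natDegree_pos hint
  exact Module.finite_of_finrank_pos hpos

end Fermat.Agent.H27.KLGB
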