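import Mathlib
import Fermat.Agent.H27.KLGB.Generate
import Fermat.Agent.H27.KLGB.Transfer
import Fermat.Agent.H22.ES.KLModel

/-!
# KL-GB (row 356), `x = j`: the concrete good basis statement of the key lemma

`modelGoodBasis_j : ModelGoodBasisStatement N ℓ jq` for every prime `ℓ ∤ N`: the powers
`1, θ, …, θ^{ψ(N)-1}` of the primitive element of `goodPrimitive_j_charZero` are a basis of
`K₁(j(q^d) : d ∣ N)` over `K₁(j)`, integral over `A₀[j]`, with discriminant `d(j)`,
`d ∈ ℤ[X]` nonzero modulo `ℓ`.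
-/

set_option autoImplicit false
set_option linter.style.haveILetI false
set_option synthInstance.maxHeartbeats 400000
set_option maxHeartbeats 1000000

noncomputable section

open ModularCurve Polynomial Fermat.Agent.H27 IntermediateField
open Fermat.Agent.H22.KL Fermat.Agent.H67.KLConn

namespace Fermat.Agent.H27.KLGB

section BaseChange

variable (K₁ : Type) [Field K₁] [Algebra ℚ K₁] (N : ℕ)

theorem coeffEmb_jq : coeffEmb K₁ jq = jqModC K₁ := by
  rw [coeffEmb, ← jqModC_rat, coeffMap_jqModC]

/-- `K₁ ⊗ F_ℚ ⊆ K₁(j(q^d) : d ∣ N)` -/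
theorem laurentBaseChange_le_fullC :
    laurentBaseChange K₁ (modularFunctionFieldFull N) ≤ modularFunctionFieldFullC K₁ N := by
  rw [laurentBaseChange, IntermediateField.adjoin_le_iff]
  rintro _ ⟨y, hy, rfl⟩
  have hle : (modularFunctionFieldFull N).toSubfield ≤
      Subfield.comap (coeffEmb K₁) (modularFunctionFieldFullC K₁ N).toSubfield := by
    rw [modularFunctionFieldFull, IntermediateField.adjoin_toSubfield, Subfield.closure_le]
    rintro w (hw | hw)
    · obtain ⟨a, rfl⟩ := hw
      show coeffEmb K₁ (algebraMap ℚ _ a) ∈ modularFunctionFieldFullC K₁ N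
      rw [coeffEmb, algebraMap_laurentSeries_eq_single, coeffMap_single,
        ← algebraMap_laurentSeries_eq_single]
      exact IntermediateField.algebraMap_mem _ _
    · obtain ⟨d, hd, hdN, rfl⟩ := hw
      show coeffEmb K₁ (qExpand ℚ d jq) ∈ modularFunctionFieldFullC K₁ N
      rw [coeffEmb, coeffMap_qExpand, ← jqModC_rat, coeffMap_jqModC]
      exact IntermediateField.subset_adjoin _ _ ⟨d, hd, hdN, rfl⟩
  exact hle hy

theorem coeffEmb_coeffMap_int (θ : LaurentSeries ℤ) :
    coeffEmb K₁ (coeffMap (Int.castRingHom ℚ) θ) = coeffMap (Int.castRingHom K₁) θ := by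
  rw [coeffEmb, coeffMap_coeffMap]
  exact coeffMap_congr (RingHom.ext_int _ _) θ

end BaseChange

section Chart

variable {K₁ : Type} [Field K₁] [Algebra ℚ K₁] {N : ℕ} [NeZero N]
  {A₀ : Type} [CommRing A₀] [IsDomain A₀] [Algebra A₀ K₁] [IsFractionRing A₀ K₁]
  [Algebra A₀ (ModelField K₁ N)] [IsScalarTower A₀ K₁ (ModelField K₁ N)]

omit [NeZero N] [IsDomain A₀] [IsFractionRing A₀ K₁] in
theorem coe_algebraMap_model (a : A₀) :
    ((algebraMap A₀ (ModelField K₁ N) a : ModelField K₁ N) : LaurentSeries K₁) =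
      algebraMap K₁ (LaurentSeries K₁) (algebraMap A₀ K₁ a) := by
  rw [IsScalarTower.algebraMap_apply A₀ K₁ (ModelField K₁ N)]
  rfl

omit [NeZero N] [IsDomain A₀] [IsFractionRing A₀ K₁] in
/-- the image of `A₀[x]` lies in `K₁(j)` -/
theorem coe_mem_kJ_of_mem_chartRing {x : ModelField K₁ N}
    (hx : (x : LaurentSeries K₁) = coeffEmb K₁ jq) {r : ModelField K₁ N}
    (hr : r ∈ chartRing A₀ (ModelField K₁ N) x) : (r : LaurentSeries K₁) ∈ kJ K₁ := by
  unfold chartRing at hr
  induction hr using Algebra.adjoin_induction with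
  | mem y hy =>
    rw [Set.mem_singleton_iff.mp hy, hx, coeffEmb_jq]
    exact IntermediateField.mem_adjoin_simple_self _ _
  | algebraMap a =>
    rw [coe_algebraMap_model]
    exact IntermediateField.algebraMap_mem _ _
  | add y z _ _ hy hz => exact add_mem hy hz
  | mul y z _ _ hy hz => exact mul_mem hy hz

omit [NeZero N] [IsDomain A₀] in
/-- the image of `K₀(x)` is `K₁(j)` -/
theorem mem_kJ_iff_chartField {x : ModelField K₁ N}
    (hx : (x : LaurentSeries K₁) = coeffEmb K₁ jq) (y : LaurentSeries K₁) :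
    y ∈ kJ K₁ ↔ ∃ c ∈ chartField A₀ (ModelField K₁ N) x,
      algebraMap (ModelField K₁ N) (LaurentSeries K₁) c = y := by
  constructor
  · intro hy
    have hle : (kJ K₁).toSubfield ≤
        (chartField A₀ (ModelField K₁ N) x).map
          (algebraMap (ModelField K₁ N) (LaurentSeries K₁)) := by
      rw [IntermediateField.adjoin_toSubfield, Subfield.closure_le]
      rintro w (hw | hw)
      · obtain ⟨a, rfl⟩ := hw
        obtain ⟨n, d, hd, rfl⟩ := IsFractionRing.div_surjective (A := A₀) a
        refine ⟨algebraMap A₀ (ModelField K₁ N) n / algebraMap A₀ (ModelField K₁ N) d, ?_, ?_⟩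
        · exact div_mem (Subfield.subset_closure (Subalgebra.algebraMap_mem _ n))
            (Subfield.subset_closure (Subalgebra.algebraMap_mem _ d))
        · rw [map_div₀, map_div₀]
          congr 1
          · exact coe_algebraMap_model n
          · exact coe_algebraMap_model d
      · rw [Set.mem_singleton_iff] at hw
        subst hw
        refine ⟨x, Subfield.subset_closure (Algebra.subset_adjoin rfl), ?_⟩
        rw [← coeffEmb_jq, ← hx]
        rfl
    exact hle hy
  · rintro ⟨c, hc, rfl⟩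
    have hle : chartField A₀ (ModelField K₁ N) x ≤
        Subfield.comap (algebraMap (ModelField K₁ N) (LaurentSeries K₁)) (kJ K₁).toSubfield := by
      unfold chartField
      rw [Subfield.closure_le]
      intro r hr
      exact coe_mem_kJ_of_mem_chartRing hx hr
    exact hle hc

omit [NeZero N] [IsDomain A₀] in
/-- `x` is transcendental over `A₀` -/
theorem transcendental_model {x : ModelField K₁ N}
    (hx : (x : LaurentSeries K₁) = coeffEmb K₁ jq) : Transcendental A₀ x := by
  rw [transcendental_iff]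
  intro p hp
  have h1 : Polynomial.aeval (jqModC K₁) (p.map (algebraMap A₀ K₁)) = 0 := by
    have h2 := congrArg (algebraMap (ModelField K₁ N) (LaurentSeries K₁)) hp
    rw [map_zero, Polynomial.aeval_def, Polynomial.hom_eval₂] at h2
    rw [Polynomial.aeval_def, Polynomial.eval₂_map]
    have h3 : (algebraMap (ModelField K₁ N) (LaurentSeries K₁)).comp
        (algebraMap A₀ (ModelField K₁ N)) =
        (algebraMap K₁ (LaurentSeries K₁)).comp (algebraMap A₀ K₁) := by
      ext a : 1
      exact coe_algebraMap_model a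
    rw [h3] at h2
    have h4 : algebraMap (ModelField K₁ N) (LaurentSeries K₁) x = jqModC K₁ := by
      rw [← coeffEmb_jq, ← hx]
      rfl
    rwa [h4] at h2
  have h5 := (transcendental_iff.mp
    (P2MW.S_ModularCurve_coeff_jqModC_neg_one.ModularCurve.CharLRows.transcendental_jqModC K₁))
    _ h1
  exact Polynomial.map_injective _ (IsFractionRing.injective A₀ K₁) (by rw [h5, Polynomial.map_zero])

end Chart

/-- a polynomial over `ℤ` which is nonzero modulo `ℓ` is nonzero modulo the maximal ideal of a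
local ring in which `ℓ` is not a unit -/
theorem map_residue_ne_zero_of_map_zmod_ne_zero {A₀ : Type} [CommRing A₀] [IsLocalRing A₀]
    (ℓ : ℕ) (hl : ℓ.Prime) (hℓ : ¬ IsUnit ((ℓ : ℕ) : A₀)) (d : Polynomial ℤ)
    (hd : d.map (Int.castRingHom (ZMod ℓ)) ≠ 0) :
    d.map (Int.castRingHom (IsLocalRing.ResidueField A₀)) ≠ 0 := by
  haveI : Fact ℓ.Prime := ⟨hl⟩
  have h0 : ((ℓ : ℕ) : IsLocalRing.ResidueField A₀) = 0 := by
    have h1 : IsLocalRing.residue A₀ ((ℓ : ℕ) : A₀) = 0 :=
      (IsLocalRing.residue_eq_zero_iff _).mpr ((IsLocalRing.mem_maximalIdeal _).mpr hℓ)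
    rwa [map_natCast] at h1
  haveI : CharP (IsLocalRing.ResidueField A₀) ℓ := (CharP.charP_iff_prime_eq_zero hl).mpr h0
  intro h
  apply hd
  have hcomp : (ZMod.castHom (dvd_refl ℓ) (IsLocalRing.ResidueField A₀)).comp
      (Int.castRingHom (ZMod ℓ)) = Int.castRingHom (IsLocalRing.ResidueField A₀) :=
    RingHom.ext_int _ _
  rw [← hcomp, ← Polynomial.map_map] at h
  exact Polynomial.map_injective _
    (ZMod.castHom (dvd_refl ℓ) (IsLocalRing.ResidueField A₀)).injective
    (by rw [h, Polynomial.map_zero])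

/-- **the power basis of the model field over the chart field** (`x = j`): for a pair `(θ, P)`
as in `goodPrimitive_j_full`, the powers `θ^i`, `i < ψ(N)`, are a basis of
`E₀ = K₁(j(q^d) : d ∣ N)` over `K₀(x)`, `θ` is integral over `A₀[x]`, and the discriminant of the
basis is `d(x)`, `d = discN ψ(N) P ∈ ℤ[X]`. -/
theorem model_basis_pow (N : ℕ) [NeZero N] {θ : LaurentSeries ℤ}
    {P : Polynomial (Polynomial ℤ)}
    (hPm : P.Monic) (hPnat : P.natDegree = dedekindPsi N)
    (hPθ : (P.map (evalAt (jqModC ℤ))).eval θ = 0) (hall : GeneratesCharZero N θ)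
    (K₁ : Type) [Field K₁] [Algebra ℚ K₁]
    (A₀ : Type) [CommRing A₀] [IsDomain A₀] [Algebra A₀ K₁] [IsFractionRing A₀ K₁]
    [Algebra A₀ (ModelField K₁ N)] [IsScalarTower A₀ K₁ (ModelField K₁ N)]
    (x : ModelField K₁ N) (hx : (x : LaurentSeries K₁) = coeffEmb K₁ jq) :
    ∃ (θE : ModelField K₁ N)
      (b : Module.Basis (Fin (dedekindPsi N)) (chartField A₀ (ModelField K₁ N) x)
        (ModelField K₁ N)),
      (θE : LaurentSeries K₁) = coeffMap (Int.castRingHom K₁) θ ∧
      (∀ i, b i = θE ^ (i : ℕ)) ∧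
      IsIntegral ↥(chartRing A₀ (ModelField K₁ N) x) θE ∧
      ((Algebra.discr (chartField A₀ (ModelField K₁ N) x) (fun i => b i) :
          chartField A₀ (ModelField K₁ N) x) : ModelField K₁ N) =
        Polynomial.aeval x ((discN (dedekindPsi N) P).map (Int.castRingHom A₀)) := by
  classical
  haveI : CharZero K₁ := algebraRat.charZero K₁
  obtain ⟨hθQ, -, -⟩ := hall ℚ
  obtain ⟨-, hgen, hdeg⟩ := hall K₁
  -- the primitive element in the model field
  have hθE : coeffMap (Int.castRingHom K₁) θ ∈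
      laurentBaseChange K₁ (modularFunctionFieldFull N) := by
    rw [← coeffEmb_coeffMap_int]
    exact coeffEmb_mem_laurentBaseChange K₁ hθQ
  set θE : ModelField K₁ N := ⟨coeffMap (Int.castRingHom K₁) θ, hθE⟩ with hθEdef
  set ι : ModelField K₁ N →+* LaurentSeries K₁ :=
    algebraMap (ModelField K₁ N) (LaurentSeries K₁) with hι
  have hιinj : Function.Injective ι := FaithfulSMul.algebraMap_injective _ _
  have hιx : ι x = jqModC K₁ := by
    rw [← coeffEmb_jq, ← hx]
    rfl
  -- the coefficient homomorphism `ℤ[X] → E`, `X ↦ x`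
  set g : Polynomial ℤ →+* ModelField K₁ N :=
    Polynomial.eval₂RingHom (Int.castRingHom (ModelField K₁ N)) x with hg
  have hιg : ι.comp g = evalAt (jqModC K₁) := by
    apply Polynomial.ringHom_ext
    · intro n
      simp [hg, evalAt]
    · simp [hg, evalAt, hιx]
  have hg0 : Polynomial.eval₂ g θE P = 0 := by
    apply hιinj
    rw [Polynomial.hom_eval₂, map_zero, hιg, ← Polynomial.eval_map]
    have := eval_map_coeffMap (Int.castRingHom K₁) P _ _ hPθ
    rwa [coeffMap_jqModC] at this
  -- the chart field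
  set K : Subfield (ModelField K₁ N) := chartField A₀ (ModelField K₁ N) x with hKdef
  have hxR : x ∈ chartRing A₀ (ModelField K₁ N) x := Algebra.subset_adjoin rfl
  have hxK : x ∈ K := Subfield.subset_closure hxR
  set φK : Polynomial ℤ →+* K :=
    Polynomial.eval₂RingHom (Int.castRingHom K) ⟨x, hxK⟩ with hφK
  have hφKg : (algebraMap K (ModelField K₁ N)).comp φK = g := by
    apply Polynomial.ringHom_ext
    · intro n
      simp [hφK, hg]
    · simp [hφK, hg]
      rfl
  have hQθ : Polynomial.aeval θE (P.map φK) = 0 := by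
    rw [Polynomial.aeval_def, Polynomial.eval₂_map, hφKg]
    exact hg0
  have hQn : (P.map φK).natDegree = dedekindPsi N := by
    rw [hPm.natDegree_map, hPnat]
  obtain ⟨hfd, hfin, hmin⟩ := transfer_degree ι K (kJ K₁)
    (fun y => mem_kJ_iff_chartField hx y) θE (dedekindPsi N) (P.map φK) (hPm.map _) hQn hQθ
    (fun e => hgen _ (laurentBaseChange_le_fullC K₁ N e.2)) hdeg
  haveI := hfd
  obtain ⟨b, hb⟩ := exists_basis_pow θE (dedekindPsi N) hfin hmin
  refine ⟨θE, b, rfl, hb, ?_, ?_⟩
  · -- integrality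
    set ψ : Polynomial ℤ →+* ↥(chartRing A₀ (ModelField K₁ N) x) :=
      Polynomial.eval₂RingHom (Int.castRingHom _) ⟨x, hxR⟩ with hψ
    have hψg : (algebraMap ↥(chartRing A₀ (ModelField K₁ N) x) (ModelField K₁ N)).comp ψ = g := by
      apply Polynomial.ringHom_ext
      · intro n
        simp [hψ, hg]
      · simp [hψ, hg]
    refine ⟨P.map ψ, hPm.map _, ?_⟩
    rw [Polynomial.eval₂_map, hψg]
    exact hg0
  · -- the discriminant
    have hfun : (fun i => b i) = fun i : Fin (dedekindPsi N) => θE ^ (i : ℕ) := funext hb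
    have hd : Algebra.discr K (fun i => b i) = φK (discN (dedekindPsi N) P) := by
      rw [hfun, discr_pow_eq_discN θE (P.map φK) (dedekindPsi N) (hPm.map _) hQn hQθ hfin hmin,
        discN_map]
    rw [hd]
    have h1 : ((φK (discN (dedekindPsi N) P) : K) : ModelField K₁ N) =
        g (discN (dedekindPsi N) P) := by
      rw [← hφKg]
      rfl
    rw [h1, Polynomial.aeval_def, Polynomial.eval₂_map, hg]
    show Polynomial.eval₂ _ _ _ = _
    congr 1
    exact RingHom.ext_int _ _

/-- **KL-GB for `x = j`** (row 356): the concrete good basis statement. -/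
theorem modelGoodBasis_j (N ℓ : ℕ) [NeZero N] (hl : ℓ.Prime) (hN : ¬ ℓ ∣ N) :
    ModelGoodBasisStatement N ℓ jq := by
  classical
  intro K₁ _ _ _ A₀ _ _ _ _ _ _ _ hℓ ϖ hϖ x hx
  haveI : Fact ℓ.Prime := ⟨hl⟩
  obtain ⟨θ, P, hθ, hPm, hPnat, hPθ, hdisc, -, -, hall⟩ := goodPrimitive_j_full N ℓ hN
  obtain ⟨θE, b, -, hb, hint, hd⟩ := model_basis_pow N hPm hPnat hPθ hall K₁ A₀ x hx
  refine ⟨dedekindPsi N, b, ?_, ?_⟩
  · intro i
    rw [hb i]
    exact hint.pow _
  · rw [hd]
    set d := discN (dedekindPsi N) P with hddef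
    rintro ⟨r, hr, hrr⟩
    have hr' : r ∈ (Polynomial.aeval (R := A₀) x).range := by
      rw [← Algebra.adjoin_singleton_eq_range_aeval]
      exact hr
    obtain ⟨R, rfl⟩ := hr'
    have h2 : Polynomial.aeval x (d.map (Int.castRingHom A₀)) =
        Polynomial.aeval x (Polynomial.C ϖ * R) := by
      rw [hrr, pow_one, Algebra.smul_def, map_mul, Polynomial.aeval_C]
      rfl
    have h3 := (transcendental_iff_injective.mp (transcendental_model (A₀ := A₀) hx)) h2
    have h4 := congrArg (Polynomial.map (IsLocalRing.residue A₀)) h3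
    rw [Polynomial.map_map, Polynomial.map_mul, Polynomial.map_C] at h4
    have h5 : IsLocalRing.residue A₀ ϖ = 0 :=
      (IsLocalRing.residue_eq_zero_iff _).mpr ((IsLocalRing.mem_maximalIdeal _).mpr hϖ.not_isUnit)
    rw [h5, Polynomial.C_0, zero_mul] at h4
    have h6 : (IsLocalRing.residue A₀).comp (Int.castRingHom A₀) =
        Int.castRingHom (IsLocalRing.ResidueField A₀) := RingHom.ext_int _ _
    rw [h6] at h4
    exact map_residue_ne_zero_of_map_zmod_ne_zero ℓ hl hℓ d hdisc h4

end Fermat.Agent.H27.KLGB
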