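import Mathlib
import Fermat.Agent.H1.ESD.T3Member
import Fermat.Agent.H57.IgusaDescent

/-!
# `t₃ ∈ k(X₀(N))` for `3 ∣ N` over EVERY field `k` with `3 ≠ 0` (in particular `k = ℚ`)

helper1's `Fermat.Agent.H1.ESD.t3_mem_fullC` is stated for algebraically closed `k`; the only
place where this is used is the lower bound `4 ≤ [k(j, j(q³)) : k(j)]`, which descends from the
algebraic closure (`H57.relrank_descent_of_isAlgebraic`).
-/

set_option autoImplicit false

noncomputable section

namespace Fermat.Agent.H27.KLGB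

open HahnSeries ModularCurve IntermediateField Polynomial Fermat.Agent.H1.ESD

section anyField

variable (k : Type) [Field k]

theorem four_le_relrank_any (h3 : (3 : k) ≠ 0) :
    ((4 : ℕ) : Cardinal) ≤ relrank (adjoin k {jqModC k}) (modularFunctionFieldFullC k 3) := by
  have h3' : (3 : AlgebraicClosure k) ≠ 0 := by
    intro h
    apply h3
    apply (algebraMap k (AlgebraicClosure k)).injective
    rw [map_ofNat, map_zero]
    exact h
  exact (four_le_relrank (AlgebraicClosure k) h3').trans
    (Fermat.Agent.H57.relrank_descent_of_isAlgebraic k (AlgebraicClosure k) 3)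

theorem t3_package_any (h3 : (3 : k) ≠ 0) :
    modularFunctionFieldFullC k 3 = adjoin k {t3 k} ∧
      Module.finrank (adjoin k {jqModC k}) (adjoin (adjoin k {jqModC k}) {t3 k}) = 4 ∧
      FiniteDimensional (adjoin k {jqModC k}) (adjoin (adjoin k {jqModC k}) {t3 k}) :=
  adjoin_eq_of_relrank_le (adjoin k {jqModC k}) (modularFunctionFieldFullC k 3) (t3 k) 4
    (adjoin_jqModC_le_fullC k 3) (fullC_three_le_adjoin_t3 k h3) (quartic3 k) (quartic3_monic k)
    (quartic3_natDegree k) (quartic3_root k) (four_le_relrank_any k h3)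

/-- `k(X₀(3)) = k(t₃)` over every field with `3 ≠ 0` -/
theorem fullC_three_eq_adjoin_t3_any (h3 : (3 : k) ≠ 0) :
    modularFunctionFieldFullC k 3 = adjoin k {t3 k} := (t3_package_any k h3).1

/-- **membership**: `t₃ ∈ k(X₀(N))` for `3 ∣ N`, over every field with `3 ≠ 0` -/
theorem t3_mem_fullC_any (h3 : (3 : k) ≠ 0) (N : ℕ) [NeZero N] (hN : 3 ∣ N) :
    t3 k ∈ modularFunctionFieldFullC k N := by
  refine full_degeneracyC_le k hN ?_
  rw [fullC_three_eq_adjoin_t3_any k h3]
  exact mem_adjoin_simple_self k (t3 k)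

end anyField

/-- `t₃ ∈ ℚ(X₀(N))` for `3 ∣ N` -/
theorem t3_mem_full_rat (N : ℕ) [NeZero N] (hN : 3 ∣ N) :
    t3 ℚ ∈ modularFunctionFieldFull N :=
  t3_mem_fullC_any ℚ (by norm_num) N hN

end Fermat.Agent.H27.KLGB
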