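import Mathlib
import Fermat.Agent.H27.KLGB.ModelTower
import Fermat.Agent.H27.KLGB.T3Any
import Fermat.Agent.H17.ESD.T2Member

/-!
# KL model inputs (D1) for `x = t₂`, `t₃`: membership over `ℚ` and transcendence

* `t2_mem_full_rat`, `t3_mem_full_rat` : `t₂ ∈ ℚ(X₀(N))` for `2 ∣ N`, `t₃ ∈ ℚ(X₀(N))` for `3 ∣ N`.
* `modelTranscendental_of_rel` : `ModelTranscendentalStatement N t₀` for every `t₀ ∈ ℤ((q))` with
  `j t₀^e = R(t₀)`, `e ≥ 1`, `R(0) ≠ 0` (no `q`-order needed: if `t` were algebraic, so would be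
  `j = R(t)/t^e`).
* `modelTranscendental_t2`, `modelTranscendental_t3`.
-/

set_option autoImplicit false
set_option linter.style.haveILetI false
set_option synthInstance.maxHeartbeats 400000
set_option maxHeartbeats 1000000

noncomputable section

open ModularCurve Polynomial Fermat.Agent.H27 IntermediateField
open Fermat.Agent.H22.KL Fermat.Agent.H67.KLConn

namespace Fermat.Agent.H27.KLGB

/-- `t₂ ∈ ℚ(X₀(N))` for `2 ∣ N` -/
theorem t2_mem_full_rat (N : ℕ) [NeZero N] (hN : 2 ∣ N) :
    Fermat.Agent.H17.ESD.t2S ℚ ∈ modularFunctionFieldFull N :=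
  Fermat.Agent.H17.ESD.t2S_mem_fullC ℚ (by norm_num) N hN

/-- **KL-M-TR for a Hauptmodul**: transcendence from the modular relation. -/
theorem modelTranscendental_of_rel (N : ℕ) [NeZero N]
    (t₀ : LaurentSeries ℤ) (R : Polynomial ℤ) (e : ℕ) (he1 : 1 ≤ e) (hR0 : R.coeff 0 ≠ 0)
    (hrel : jqModC ℤ * t₀ ^ e = Polynomial.aeval t₀ R) :
    ModelTranscendentalStatement N (coeffMap (Int.castRingHom ℚ) t₀) := by
  classical
  intro K₁ _ _ A₀ _ _ _ _ _ _ x hx
  haveI : CharZero K₁ := algebraRat.charZero K₁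
  haveI : CharZero (ModelField K₁ N) :=
    charZero_of_injective_algebraMap (algebraMap K₁ (ModelField K₁ N)).injective
  set ι : ModelField K₁ N →+* LaurentSeries K₁ :=
    algebraMap (ModelField K₁ N) (LaurentSeries K₁) with hι
  have hιinj : Function.Injective ι := FaithfulSMul.algebraMap_injective _ _
  have hjmem : coeffEmb K₁ jq ∈ laurentBaseChange K₁ (modularFunctionFieldFull N) :=
    coeffEmb_mem_laurentBaseChange K₁ (by
      have := jqModC_mem_full ℚ N
      exact this)
  set jE : ModelField K₁ N := ⟨coeffEmb K₁ jq, hjmem⟩ with hjE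
  have hιj : ι jE = jqModC K₁ := coeffEmb_jq K₁
  have hιx : ι x = coeffMap (Int.castRingHom K₁) t₀ := by
    show (x : LaurentSeries K₁) = _
    rw [hx, coeffEmb_coeffMap_int]
  have hcomp : (ι.comp (algebraMap K₁ (ModelField K₁ N))).comp (Int.castRingHom K₁) =
      (coeffMap (Int.castRingHom K₁)).comp (algebraMap ℤ (LaurentSeries ℤ)) :=
    RingHom.ext_int _ _
  have hrelE : jE * x ^ e = Polynomial.aeval x (R.map (Int.castRingHom K₁)) := by
    apply hιinj
    rw [map_mul, map_pow, hιj, hιx, Polynomial.aeval_def, Polynomial.hom_eval₂,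
      Polynomial.eval₂_map, hιx, hcomp]
    have h1 := congrArg (coeffMap (Int.castRingHom K₁)) hrel
    rw [map_mul, map_pow, coeffMap_jqModC, Polynomial.aeval_def, Polynomial.hom_eval₂] at h1
    exact h1
  have hx0 : x ≠ 0 := by
    intro h0
    rw [h0, zero_pow (by omega : e ≠ 0), mul_zero, ← Polynomial.coeff_zero_eq_aeval_zero',
      Polynomial.coeff_map] at hrelE
    have h2 : algebraMap K₁ (ModelField K₁ N) ((Int.castRingHom K₁) (R.coeff 0)) ≠ 0 := by
      rw [Ne, map_eq_zero_iff _ (algebraMap K₁ (ModelField K₁ N)).injective]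
      simpa using hR0
    exact h2 hrelE.symm
  -- `j` is transcendental over `K₁`
  have hjtr : Transcendental K₁ jE := by
    intro halg
    have h3 : IsAlgebraic K₁ (ι jE) := halg.algebraMap
    rw [hιj] at h3
    exact (P2MW.S_ModularCurve_coeff_jqModC_neg_one.ModularCurve.CharLRows.transcendental_jqModC
      K₁) h3
  have hxtr : Transcendental K₁ x := by
    intro halgK
    apply hjtr
    have hxm : x ∈ algebraicClosure K₁ (ModelField K₁ N) := mem_algebraicClosure_iff.mpr halgK
    have hjm : jE ∈ algebraicClosure K₁ (ModelField K₁ N) := by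
      have h1 : jE = Polynomial.aeval x (R.map (Int.castRingHom K₁)) / x ^ e := by
        rw [← hrelE, mul_div_assoc, div_self (pow_ne_zero e hx0), mul_one]
      rw [h1]
      refine div_mem ?_ (pow_mem hxm e)
      have h2 := IntermediateField.aeval_coe (algebraicClosure K₁ (ModelField K₁ N))
        (⟨x, hxm⟩ : ↥(algebraicClosure K₁ (ModelField K₁ N))) (R.map (Int.castRingHom K₁))
      have h3 : Polynomial.aeval x (R.map (Int.castRingHom K₁)) =
          ((Polynomial.aeval (⟨x, hxm⟩ : ↥(algebraicClosure K₁ (ModelField K₁ N)))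
            (R.map (Int.castRingHom K₁)) : ↥(algebraicClosure K₁ (ModelField K₁ N))) :
              ModelField K₁ N) := h2
      rw [h3]
      exact Subtype.property _
    exact mem_algebraicClosure_iff.mp hjm
  exact hxtr.restrictScalars (IsFractionRing.injective A₀ K₁)

/-- **KL-M-TR for `x = t₂`** -/
theorem modelTranscendental_t2 (N : ℕ) [NeZero N] :
    ModelTranscendentalStatement N (Fermat.Agent.H17.ESD.t2S ℚ) := by
  have h := modelTranscendental_of_rel N (Fermat.Agent.H17.ESD.t2S ℤ)
    ((Polynomial.X + Polynomial.C 256) ^ 3) 2 (by norm_num)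
    (by
      rw [Polynomial.coeff_zero_eq_eval_zero]
      simp only [Polynomial.eval_pow, Polynomial.eval_add, Polynomial.eval_X,
        Polynomial.eval_C, zero_add]
      norm_num)
    (by
      rw [Fermat.Agent.H17.ESD.t2S_identity ℤ]
      simp only [map_pow, map_add, Polynomial.aeval_X, map_ofNat])
  rwa [Fermat.Agent.H17.ESD.coeffMap_t2S] at h

/-- **KL-M-TR for `x = t₃`** -/
theorem modelTranscendental_t3 (N : ℕ) [NeZero N] :
    ModelTranscendentalStatement N (Fermat.Agent.H1.ESD.t3 ℚ) := by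
  have h := modelTranscendental_of_rel N (Fermat.Agent.H1.ESD.t3 ℤ)
    ((Polynomial.X + Polynomial.C 27) * (Polynomial.X + Polynomial.C 243) ^ 3) 3 (by norm_num)
    (by
      rw [Polynomial.coeff_zero_eq_eval_zero]
      simp only [Polynomial.eval_mul, Polynomial.eval_pow, Polynomial.eval_add,
        Polynomial.eval_X, Polynomial.eval_C, zero_add]
      norm_num)
    (by
      rw [Fermat.Agent.H1.ESD.t3_rel ℤ]
      simp only [map_mul, map_pow, map_add, Polynomial.aeval_X, map_ofNat])
  rwa [Fermat.Agent.H1.ESD.coeffMap_t3] at h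

end Fermat.Agent.H27.KLGB
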